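import Fermat.Agent.G1.Cong.Level1
import Fermat.Agent.G1.GalBridge

/-!
# G1 / CONG: the Hecke congruence data of `X₁(M)` at a prime `p ∤ M`

Model field `F₀ = F1a M 1`, `J = Pic0 ℚ̄ (ℚ̄·F1a M 1)`.  Global operators (independent of the
valuation ring):

* `congT M p := GaloisOps.heckeFam ℚ̄ (F1a M 1) (fun p _ => F1a M p) p` — the correspondence
  `α_* β^*`, `α` = inclusion `ℚ̄·F1a M 1 → ℚ̄·F1a M p`, `β = V_p`;
* `congD M p := GaloisOps.autOp (diaK iotaK M 1 (cunit M p))`, `cunit M p · p = 1` in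
  `(ℤ/M)ˣ` — the diamond with `δ x_u = x_{u·p}`, `δ j(q^d) = j(q^d)`.

Inputs still taken as hypotheses (named `Prop`s):

* `FinRat F₀` : `ℚ̄·F₀` is finite over a rational subfield `ℚ̄(x)`, `x` transcendental;
* `ConjAt M p hM c` : the conjugate embeddings `τ_w` of `ℚ̄·F1a M p` (`w^p = 1`);
* `UnitDia M A` : the diamonds preserve the units of the Gauss valuation ring at `A`;
* `IntegralScaling (F1a M 1) A`.

Outputs:

* `qExpand_norm1` : `Nm_α (V_p y)(t^p) = y(t^{p²}) · ∏_{b<p} (δ y)(ζ^b t)`;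
* `isKummerPair_congT`, `isKummerPair_congD` : the Kummer transfers;
* `congT_galois`, `congD_galois` : both operators commute with the Galois action;
* `exists_heckeCongG1` : a `HeckeCongG (F1a M 1) A p l` with `T = congT M p`, `D₁ = id`,
  `D₂ = congD M p`;
* `frobenius_relation1` : `σ² (congD M p x) - congT M p (σ x) + p x = 0` on `J[l]`.
-/

set_option autoImplicit false
set_option linter.unusedSectionVars false

noncomputable section

namespace Fermat.Agent.G1.Cong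

open ModularCurve AlgebraicCurve HahnSeries IntermediateField
open Fermat.Agent.S24 Fermat.Agent.S28 Fermat.Agent.S28.Chain
open Fermat.Agent.ESJ.Jac Fermat.Agent.ESJ.Jac.HeckeKummer Fermat.Agent.ESJ.Cong
open Fermat.Agent.Lib.Red Fermat.Agent.ESJ.RedK
open Fermat.Agent.G1.Dict Fermat.Agent.G1.Gal

/-! ### The unit `c_p` and the global operators -/

/-- The unit `c_p` of `ℤ/M` with `c_p · p = 1` (and `1` if `p` is not prime to `M`). -/
def cunit (M p : ℕ) : (ZMod M)ˣ :=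
  if h : Nat.Coprime p M then (ZMod.unitOfCoprime p h)⁻¹ else 1

theorem cunit_eq {M p : ℕ} (h : Nat.Coprime p M) : cunit M p = (ZMod.unitOfCoprime p h)⁻¹ := by
  rw [cunit, dif_pos h]

theorem cunit_mul {M p : ℕ} (h : Nat.Coprime p M) : ((cunit M p : (ZMod M)ˣ) : ZMod M) * p = 1 := by
  rw [cunit_eq h, ← ZMod.coe_unitOfCoprime p h, ← Units.val_mul, inv_mul_cancel, Units.val_one]

variable (M : ℕ) [NeZero M]

/-- **The Hecke operator `T_p`** of `X₁(M)` on `Pic0 ℚ̄ (ℚ̄·F1a M 1)` (total in `p`). -/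
def congT (p : ℕ) :
    Pic0 (AlgebraicClosure ℚ) (F1aK (AlgebraicClosure ℚ) M 1) →+
      Pic0 (AlgebraicClosure ℚ) (F1aK (AlgebraicClosure ℚ) M 1) :=
  GaloisOps.heckeFam (AlgebraicClosure ℚ) (F1a M 1) (fun p _ => F1a M p) p

/-- **The diamond operator** of `X₁(M)` attached to `p`: `δ x_u = x_{u·p}`. -/
def congD (p : ℕ) :
    Pic0 (AlgebraicClosure ℚ) (F1aK (AlgebraicClosure ℚ) M 1) →+
      Pic0 (AlgebraicClosure ℚ) (F1aK (AlgebraicClosure ℚ) M 1) :=
  GaloisOps.autOp (diaK iotaK M 1 (cunit M p))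

/-- The Kummer transfer of `congD`. -/
def congDelta (p : ℕ) :
    F1aK (AlgebraicClosure ℚ) M 1 →* F1aK (AlgebraicClosure ℚ) M 1 :=
  MonoidHomClass.toMonoidHom (diaK iotaK M 1 (cunit M p))

theorem congDelta_apply (p : ℕ) (f : F1aK (AlgebraicClosure ℚ) M 1) :
    congDelta M p f = diaK iotaK M 1 (cunit M p) f := rfl

/-- `T_p` commutes with the Galois action. -/
theorem congT_galois (p : ℕ) (σ : AlgebraicClosure ℚ ≃ₐ[ℚ] AlgebraicClosure ℚ)
    (x : Pic0 (AlgebraicClosure ℚ) (F1aK (AlgebraicClosure ℚ) M 1)) :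
    congT M p (σ • x) = σ • congT M p x :=
  GaloisOps.comm_heckeFam p σ x

/-- The Kummer transfer of the diamond. -/
theorem isKummerPair_congD (p : ℕ) {n : ℕ}
    {x : Pic0 (AlgebraicClosure ℚ) (F1aK (AlgebraicClosure ℚ) M 1)}
    {f : F1aK (AlgebraicClosure ℚ) M 1} (h : IsKummerPair n x f) :
    IsKummerPair n (congD M p x) (congDelta M p f) :=
  GaloisOps.isKummerPair_autOp h _

/-- **The diamonds commute with the coefficientwise Galois action.** -/
theorem diaK_galois (c : (ZMod M)ˣ) (σ : AlgebraicClosure ℚ ≃ₐ[ℚ] AlgebraicClosure ℚ)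
    (f : F1aK (AlgebraicClosure ℚ) M 1) :
    diaK iotaK M 1 c (arithmeticGalois (F1a M 1) σ • f) =
      arithmeticGalois (F1a M 1) σ • diaK iotaK M 1 c f := by
  refine GaloisOps.galois_comm_F1a (diaK iotaK M 1 c) ?_ ?_ σ f
  · intro s hs hs'
    refine ⟨s, ?_⟩
    rw [diaK_eq_self_of_mem_base iotaK M 1 c ⟨_, hs'⟩ (coeffEmb_mem_laurentBaseChange _ hs)]
  · intro u hs
    refine ⟨xgen M (u * c⁻¹), ?_⟩
    rw [coe_diaK_xgenR iotaK M 1 c u ⟨_, hs⟩ (coeffEmb_xgen M _ u), coeffEmb_xgen]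

theorem congDelta_galois (p : ℕ) (σ : AlgebraicClosure ℚ ≃ₐ[ℚ] AlgebraicClosure ℚ)
    (f : F1aK (AlgebraicClosure ℚ) M 1) :
    congDelta M p (arithmeticGalois (F1a M 1) σ • f) =
      arithmeticGalois (F1a M 1) σ • congDelta M p f :=
  diaK_galois M _ σ f

/-- The diamond operator commutes with the Galois action. -/
theorem congD_galois (p : ℕ) (σ : AlgebraicClosure ℚ ≃ₐ[ℚ] AlgebraicClosure ℚ)
    (x : Pic0 (AlgebraicClosure ℚ) (F1aK (AlgebraicClosure ℚ) M 1)) :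
    congD M p (σ • x) = σ • congD M p x :=
  GaloisOps.comm_autOp _ σ (diaK_galois M _ σ) x

/-! ### The function `j` -/

/-- `j` as an element of `ℚ̄·F1a M 1`. -/
def jElt : F1aK (AlgebraicClosure ℚ) M 1 :=
  gen1K (AlgebraicClosure ℚ) M 1 (Sum.inl ⟨1, one_dvd _⟩)

theorem coe_jElt : ((jElt M : F1aK (AlgebraicClosure ℚ) M 1) :
    LaurentSeries (AlgebraicClosure ℚ)) = jqModC (AlgebraicClosure ℚ) := by
  have h0 : ((jElt M : F1aK (AlgebraicClosure ℚ) M 1) : LaurentSeries (AlgebraicClosure ℚ)) =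
      coeffEmb (AlgebraicClosure ℚ) (qExpand ℚ 1 jq) := rfl
  rw [h0, ← TD.Jd_rat 1, ← TD.Jd_one]
  exact TD.coeffMap_Jd (algebraMap ℚ (AlgebraicClosure ℚ)) 1

theorem diaK_jElt (c : (ZMod M)ˣ) : diaK iotaK M 1 c (jElt M) = jElt M :=
  diaK_gen_inl iotaK M 1 c _

/-! ### The named inputs -/

/-- `ℚ̄·F₀` is a function field of one variable: finite over `ℚ̄(x)`, `x` transcendental. -/
def FinRat (F₀ : IntermediateField ℚ (LaurentSeries ℚ)) : Prop :=
  ∃ x : ↥(laurentBaseChange (AlgebraicClosure ℚ) F₀), Transcendental (AlgebraicClosure ℚ) x ∧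
    FiniteDimensional (AlgebraicClosure ℚ)⟮x⟯ ↥(laurentBaseChange (AlgebraicClosure ℚ) F₀)

/-- **The conjugate embeddings** of the Hecke-level field `ℚ̄·F1a M p`: for every `p`-th root of
unity `w` an embedding `τ_w` into `ℚ̄((t))` with `τ_w ∘ α = (q ↦ t^p)` and
`τ_w ∘ V_p = (t ↦ w t) ∘ δ_c`. -/
def ConjAt (p : ℕ) [NeZero p] (hM : 3 ≤ M) (c : (ZMod M)ˣ) : Prop :=
  ∀ w : (AlgebraicClosure ℚ)ˣ, w ^ p = 1 →
    ∃ τ : ↥(laurentBaseChange (AlgebraicClosure ℚ) (F1a M p)) →+*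
        LaurentSeries (AlgebraicClosure ℚ),
      (∀ x : F1aK (AlgebraicClosure ℚ) M 1,
        τ (GaloisOps.inclBar (AlgebraicClosure ℚ) (F1a_one_le M p) x) =
          qExpand (AlgebraicClosure ℚ) p (x : LaurentSeries (AlgebraicClosure ℚ))) ∧
      (∀ x : F1aK (AlgebraicClosure ℚ) M 1,
        τ (GaloisOps.vBar (AlgebraicClosure ℚ) p (vStable1 M p hM) x) =
          rot w ((diaK iotaK M 1 c x : F1aK (AlgebraicClosure ℚ) M 1) :
            LaurentSeries (AlgebraicClosure ℚ)))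

/-- **The diamonds preserve the units of the Gauss valuation ring** at `A`. -/
def UnitDia (A : ValuationSubring (AlgebraicClosure ℚ)) : Prop :=
  ∀ (c : (ZMod M)ˣ) (f : F1aK (AlgebraicClosure ℚ) M 1)
    (u : LaurentSeries (IsLocalRing.ResidueField A)), u ≠ 0 →
    RedTo A (IsLocalRing.residue A) (f : LaurentSeries (AlgebraicClosure ℚ)) u →
    ∃ u' : LaurentSeries (IsLocalRing.ResidueField A), u' ≠ 0 ∧
      RedTo A (IsLocalRing.residue A)
        ((diaK iotaK M 1 c f : F1aK (AlgebraicClosure ℚ) M 1) :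
          LaurentSeries (AlgebraicClosure ℚ)) u'

/-! ### The outputs -/

variable {M}

/-- The inputs of the Hecke correspondence of `X₁(M)` at `p`. -/
theorem corrInputs1 (p : ℕ) [NeZero p] (hM : 3 ≤ M) (hf1 : FinRat (F1a M 1))
    (hfp : FinRat (F1a M p)) :
    CorrInputs (alphaOfLe (AlgebraicClosure ℚ) (F1a_one_le M p))
      (betaOfStable (AlgebraicClosure ℚ) p (vStable1 M p hM)) := by
  obtain ⟨x, hx, hxfin⟩ := hf1
  obtain ⟨x', -, hx'fin⟩ := hfp
  haveI := hxfin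
  haveI := hx'fin
  exact corrInputs_of_finite _ _ hx x'

/-- `congT M p` is the correspondence `α_* V_p^*`. -/
theorem congT_eq (p : ℕ) [NeZero p] (hM : 3 ≤ M) (hf1 : FinRat (F1a M 1))
    (hfp : FinRat (F1a M p)) :
    congT M p = heckeTOfLevel p (F1a_one_le M p) (vStable1 M p hM) := by
  have hcorr := corrInputs1 p hM hf1 hfp
  rw [congT, GaloisOps.heckeFam_eq, heckeTOfLevel, corrTotal_eq_heckeGen _ _ _ _ hcorr]

/-- **The Kummer transfer of `T_p`** is `Nm_α ∘ V_p`. -/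
theorem isKummerPair_congT (p : ℕ) [NeZero p] (hM : 3 ≤ M) (hf1 : FinRat (F1a M 1))
    (hfp : FinRat (F1a M p)) {n : ℕ}
    {x : Pic0 (AlgebraicClosure ℚ) (F1aK (AlgebraicClosure ℚ) M 1)}
    {f : F1aK (AlgebraicClosure ℚ) M 1} (h : IsKummerPair n x f) :
    IsKummerPair n (congT M p x)
      (normAlong (GaloisOps.inclBar (AlgebraicClosure ℚ) (F1a_one_le M p))
        (GaloisOps.vBar (AlgebraicClosure ℚ) p (vStable1 M p hM) f)) := by
  rw [congT_eq p hM hf1 hfp]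
  exact isKummerPair_heckeTOfLevel p _ _ (corrInputs1 p hM hf1 hfp) h

/-- **The norm formula of `X₁(M)`**:
`Nm_α (V_p y)(t^p) = y(t^{p²}) · ∏_{b<p} (δ y)(ζ^b t)`, `δ = diaK iotaK M 1 (cunit M p)`. -/
theorem qExpand_norm1 (p : ℕ) [NeZero p] (hM : 3 ≤ M) (hp : p.Prime) (hpM : ¬ p ∣ M)
    (hconj : ConjAt M p hM (cunit M p)) (ζ : (AlgebraicClosure ℚ)ˣ) (hζ : IsPrimitiveRoot ζ p)
    (y : F1aK (AlgebraicClosure ℚ) M 1) :
    qExpand (AlgebraicClosure ℚ) p
        ((normAlong (GaloisOps.inclBar (AlgebraicClosure ℚ) (F1a_one_le M p))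
          (GaloisOps.vBar (AlgebraicClosure ℚ) p (vStable1 M p hM) y) :
            F1aK (AlgebraicClosure ℚ) M 1) : LaurentSeries (AlgebraicClosure ℚ)) =
      qExpand (AlgebraicClosure ℚ) (p * p) (y : LaurentSeries (AlgebraicClosure ℚ)) *
        ∏ b ∈ Finset.range p,
          rot (ζ ^ b) ((diaK iotaK M 1 (cunit M p) y : F1aK (AlgebraicClosure ℚ) M 1) :
            LaurentSeries (AlgebraicClosure ℚ)) :=
  qExpand_norm_of_level p hp (F1a_one_le M p) (vStable1 M p hM) (finiteAlong_incl1 M p hp hpM)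
    (finrankAlong_incl1_le M p hp hpM) (fun f => diaK iotaK M 1 (cunit M p) f) hconj (jElt M)
    (by rw [diaK_jElt]; exact coe_jElt M) ζ hζ y

/-- **The Hecke congruence data of `X₁(M)` at `p ∤ M`** (Gauss-ring form), with the global
operators `congT M p`, `id`, `congD M p`. -/
theorem exists_heckeCongG1 (p : ℕ) [NeZero p] (hM : 3 ≤ M) (hp : p.Prime) (hpM : ¬ p ∣ M)
    (l : ℕ) (A : ValuationSubring (AlgebraicClosure ℚ)) (hA : A.LiesOverPrime p)
    (hS : IntegralScaling (F1a M 1) A) (hf1 : FinRat (F1a M 1)) (hfp : FinRat (F1a M p))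
    (hconj : ConjAt M p hM (cunit M p)) (hunit : UnitDia M A) :
    ∃ C : HeckeCongG (F1a M 1) A p l,
      C.T = congT M p ∧ C.D₁ = AddMonoidHom.id _ ∧ C.D₂ = congD M p := by
  have hcorr := corrInputs1 p hM hf1 hfp
  refine ⟨heckeCongGOfLevel A hS p l hp hA (F1a_one_le M p) (vStable1 M p hM) hcorr
    (finrankAlong_incl1_le M p hp hpM) (congD M p) (congDelta M p)
    (fun h => isKummerPair_congD M p h) (congDelta_galois M p)
    (fun f u hu h => hunit (cunit M p) f u hu h) hconj (jElt M)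
    (by rw [congDelta_apply, diaK_jElt]; exact coe_jElt M), ?_, rfl, rfl⟩
  exact (congT_eq p hM hf1 hfp).symm

/-- **The Eichler–Shimura relation of `X₁(M)` at `p ∤ M`** on `J[l]`:
`σ² (congD M p x) - congT M p (σ x) + p x = 0` for a Frobenius element `σ` of `A` over `p`. -/
theorem frobenius_relation1 (p : ℕ) [NeZero p] (hM : 3 ≤ M) (hp : p.Prime) (hpM : ¬ p ∣ M)
    {l : ℕ} (hl : l ≠ 0) (A : ValuationSubring (AlgebraicClosure ℚ)) (hA : A.LiesOverPrime p)
    (hS : IntegralScaling (F1a M 1) A) (hK : KummerRootF (F1a M 1) A l)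
    (hf1 : FinRat (F1a M 1)) (hfp : FinRat (F1a M p))
    (hconj : ConjAt M p hM (cunit M p)) (hunit : UnitDia M A)
    (σ : AlgebraicClosure ℚ ≃ₐ[ℚ] AlgebraicClosure ℚ) (hσ : A.IsFrobeniusAt σ p)
    (x : Pic0 (AlgebraicClosure ℚ) (F1aK (AlgebraicClosure ℚ) M 1))
    (hx : (l : ℤ) • x = 0) :
    σ • σ • congD M p x - congT M p (σ • x) + p • x = 0 := by
  obtain ⟨C, hT, hD₁, hD₂⟩ := exists_heckeCongG1 p hM hp hpM l A hA hS hf1 hfp hconj hunit
  have h := frobenius_relationG hS p hp hA hl hK C σ hσ x hx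
  rw [hT, hD₁, hD₂] at h
  exact h

end Fermat.Agent.G1.Cong
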