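import Fermat.Agent.ESJ.Cong.TorsionESK

/-!
# G1 / CONG: the `r`-free Eichler–Shimura relation on torsion, for an abstract function field
with diamond operators

This is `ESJ/Cong/TorsionESK.lean` with the modular function field of `X₀(N)` replaced by an
arbitrary `F₀ : IntermediateField ℚ (LaurentSeries ℚ)` (for instance a `ℚ`-model of the function
field of `X₁(M)` with rational `q`-expansions), `F = ℚ̄·F₀ = laurentBaseChange ℚ̄ F₀`,
`J = Pic0 ℚ̄ F`.  No place reduction is used.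

Let `A` be a valuation subring of `ℚ̄`.

* `KummerRootF F₀ A m` : (K18), ratio form — two `A`-integral series of `F` with the same nonzero
  reduction whose quotient has a divisor divisible by `m` differ by an `m`-th power;
* `IntegralScaling F₀ A` : every nonzero function is `a⁻¹ P / s` with `P, s ∈ A((q)) ∩ F` of
  nonzero reduction (a consequence of "the Gauss valuation has good reduction", `GoodV`);
* `inertia_smul_eq` : the inertia group of `A` acts trivially on `J[m]`;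
* `HeckeCong F₀ A ℓ m` : the data of a Hecke operator `T` with Kummer transfer `NT` (the norm of
  the pull-back), two "diamond" operators `D₁, D₂` with Kummer transfers `δ₁, δ₂` (defined over
  `ℚ`, preserving integrality), and the congruence
  `red (NT y)(q^ℓ) = red (δ₁ y)(q^{ℓ²}) · red (δ₂ y)(q)^ℓ`
  (for `X₀(N)`: `δ₁ = δ₂ = id`, `NT = Nm_α ∘ β`, the congruence is
  `ConjAnalytic.norm_beta_reduction`; for `X₁(M)`: one of the `δᵢ` is a diamond operator);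
* `frobenius_relation` : for a Frobenius element `σ` of `A` over `ℓ`:
  `σ² D₂ x - T (σ x) + ℓ D₁ x = 0` on `J[m]`.
-/

set_option autoImplicit false

noncomputable section

namespace Fermat.Agent.G1.Cong

open ModularCurve AlgebraicCurve HahnSeries
open Fermat.Agent.ESJ.Jac Fermat.Agent.ESJ.Cong

variable (F₀ : IntermediateField ℚ (LaurentSeries ℚ))
  (A : ValuationSubring (AlgebraicClosure ℚ))

/-- **(K18), ratio form**, for the function field `ℚ̄·F₀`. -/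
def KummerRootF (m : ℕ) : Prop :=
  ∀ (y z : LaurentSeries A)
    (hy : coeffMap A.subtype y ∈ laurentBaseChange (AlgebraicClosure ℚ) F₀)
    (hz : coeffMap A.subtype z ∈ laurentBaseChange (AlgebraicClosure ℚ) F₀),
    coeffMap (IsLocalRing.residue A) z ≠ 0 →
    coeffMap (IsLocalRing.residue A) y = coeffMap (IsLocalRing.residue A) z →
    (∀ v : Place (AlgebraicClosure ℚ) (laurentBaseChange (AlgebraicClosure ℚ) F₀),
      (m : ℤ) ∣ v.ord (⟨_, hy⟩ : laurentBaseChange (AlgebraicClosure ℚ) F₀) -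
        v.ord (⟨_, hz⟩ : laurentBaseChange (AlgebraicClosure ℚ) F₀)) →
    ∃ g : laurentBaseChange (AlgebraicClosure ℚ) F₀,
      (⟨_, hy⟩ : laurentBaseChange (AlgebraicClosure ℚ) F₀) = ⟨_, hz⟩ * g ^ m

/-- **Integral scaling**: every nonzero function of `ℚ̄·F₀` is `a⁻¹ P / s` with
`P, s ∈ A((q)) ∩ ℚ̄·F₀` of nonzero reduction. -/
def IntegralScaling : Prop :=
  ∀ f : laurentBaseChange (AlgebraicClosure ℚ) F₀, f ≠ 0 →
    ∃ (a : AlgebraicClosure ℚ) (P s : LaurentSeries A)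
      (hP : coeffMap A.subtype P ∈ laurentBaseChange (AlgebraicClosure ℚ) F₀)
      (hs : coeffMap A.subtype s ∈ laurentBaseChange (AlgebraicClosure ℚ) F₀),
      a ≠ 0 ∧ coeffMap (IsLocalRing.residue A) P ≠ 0 ∧ coeffMap (IsLocalRing.residue A) s ≠ 0 ∧
        algebraMap (AlgebraicClosure ℚ) (laurentBaseChange (AlgebraicClosure ℚ) F₀) a * f *
          ⟨_, hs⟩ = ⟨_, hP⟩

variable {F₀ A}

theorem incl_ne_zero {z : LaurentSeries A}
    (hz : coeffMap A.subtype z ∈ laurentBaseChange (AlgebraicClosure ℚ) F₀)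
    (hzbar : coeffMap (IsLocalRing.residue A) z ≠ 0) :
    (⟨_, hz⟩ : laurentBaseChange (AlgebraicClosure ℚ) F₀) ≠ 0 := by
  intro h0
  apply hzbar
  have h1 : coeffMap A.subtype z = 0 := congrArg Subtype.val h0
  have hz' : z = 0 :=
    (coeffMap_eq_zero_iff_of_injective A.subtype Subtype.val_injective z).mp h1
  rw [hz', map_zero]

/-- Integral series are determined by their image in `ℚ̄((q))`. -/
theorem eq_of_mk_eq {y z : LaurentSeries A}
    {hy : coeffMap A.subtype y ∈ laurentBaseChange (AlgebraicClosure ℚ) F₀}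
    {hz : coeffMap A.subtype z ∈ laurentBaseChange (AlgebraicClosure ℚ) F₀}
    (h : (⟨_, hy⟩ : laurentBaseChange (AlgebraicClosure ℚ) F₀) = ⟨_, hz⟩) : y = z := by
  have h1 : coeffMap A.subtype y = coeffMap A.subtype z := congrArg Subtype.val h
  have h2 : coeffMap A.subtype (y - z) = 0 := by rw [map_sub, h1, sub_self]
  exact sub_eq_zero.mp
    ((coeffMap_eq_zero_iff_of_injective A.subtype Subtype.val_injective _).mp h2)

/-- The coefficientwise action of the decomposition group on `A((q)) ∩ ℚ̄·F₀`, upstairs and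
downstairs. -/
theorem exists_galois_smul (σ : A.decompositionSubgroup ℚ) (y : LaurentSeries A)
    (hy : coeffMap A.subtype y ∈ laurentBaseChange (AlgebraicClosure ℚ) F₀) :
    ∃ (y' : LaurentSeries A)
      (hy' : coeffMap A.subtype y' ∈ laurentBaseChange (AlgebraicClosure ℚ) F₀),
      arithmeticGalois F₀ ((σ : AlgebraicClosure ℚ ≃ₐ[ℚ] AlgebraicClosure ℚ)) •
          (⟨_, hy⟩ : laurentBaseChange (AlgebraicClosure ℚ) F₀) = ⟨_, hy'⟩ ∧
      coeffMap (IsLocalRing.residue A) y' =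
        coeffMap ((resAut A σ : IsLocalRing.ResidueField A ≃+* IsLocalRing.ResidueField A) :
          IsLocalRing.ResidueField A →+* IsLocalRing.ResidueField A)
          (coeffMap (IsLocalRing.residue A) y) := by
  have h := coeffMap_subtype_decompRingHom A σ y
  have hmem : coeffMap A.subtype (coeffMap (decompRingHom A σ) y) ∈
      laurentBaseChange (AlgebraicClosure ℚ) F₀ := by
    rw [h]
    exact (arithmeticGalois F₀ ((σ : AlgebraicClosure ℚ ≃ₐ[ℚ] AlgebraicClosure ℚ)) •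
        (⟨_, hy⟩ : laurentBaseChange (AlgebraicClosure ℚ) F₀)).2
  exact ⟨coeffMap (decompRingHom A σ) y, hmem, Subtype.ext h.symm,
    coeffMap_residue_decompRingHom A σ y⟩

/-- A class whose Kummer function is a quotient of two integral series with the same nonzero
reduction is zero. -/
theorem eq_zero_of_ratio {m : ℕ} (hm : m ≠ 0) (hK : KummerRootF F₀ A m)
    {x : Pic0 (AlgebraicClosure ℚ) (laurentBaseChange (AlgebraicClosure ℚ) F₀)}
    {H : laurentBaseChange (AlgebraicClosure ℚ) F₀}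
    (hpair : IsKummerPair m x H) (y z : LaurentSeries A)
    (hy : coeffMap A.subtype y ∈ laurentBaseChange (AlgebraicClosure ℚ) F₀)
    (hz : coeffMap A.subtype z ∈ laurentBaseChange (AlgebraicClosure ℚ) F₀)
    (hzbar : coeffMap (IsLocalRing.residue A) z ≠ 0)
    (hyz : coeffMap (IsLocalRing.residue A) y = coeffMap (IsLocalRing.residue A) z)
    (hH : H * ⟨_, hz⟩ = ⟨_, hy⟩) : x = 0 := by
  have hz0 : (⟨_, hz⟩ : laurentBaseChange (AlgebraicClosure ℚ) F₀) ≠ 0 := incl_ne_zero hz hzbar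
  have hH0 : H ≠ 0 := hpair.ne_zero
  obtain ⟨g, hg⟩ := hK y z hy hz hzbar hyz (fun v => by
    obtain ⟨-, D, -, hD⟩ := hpair
    rw [← hH, v.ord_mul hH0 hz0, add_sub_cancel_right, ← hD v]
    exact dvd_mul_right _ _)
  have hHg : H = g ^ m := by
    have h1 : H * ⟨_, hz⟩ = g ^ m * ⟨_, hz⟩ := by rw [hH, hg, mul_comm]
    exact mul_right_cancel₀ hz0 h1
  have hg0 : g ≠ 0 := by
    rintro rfl
    rw [zero_pow hm] at hHg
    exact hH0 hHg
  have hpair' : IsKummerPair m x (1 * g ^ m) := by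
    rw [one_mul, ← hHg]
    exact hpair
  exact IsKummerPair.eq_zero_of_eq_mul_pow hm hpair' (fun v => v.ord_one) hg0

/-- Every torsion class has a Kummer function which is a quotient `P / s` of two `A`-integral
series of `ℚ̄·F₀` with nonzero reductions. -/
theorem exists_integral_kummerPair (hS : IntegralScaling F₀ A) {m : ℕ}
    {x : Pic0 (AlgebraicClosure ℚ) (laurentBaseChange (AlgebraicClosure ℚ) F₀)}
    (hx : (m : ℤ) • x = 0) :
    ∃ (f : laurentBaseChange (AlgebraicClosure ℚ) F₀) (P s : LaurentSeries A)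
      (hP : coeffMap A.subtype P ∈ laurentBaseChange (AlgebraicClosure ℚ) F₀)
      (hs : coeffMap A.subtype s ∈ laurentBaseChange (AlgebraicClosure ℚ) F₀),
      IsKummerPair m x f ∧ coeffMap (IsLocalRing.residue A) P ≠ 0 ∧
        coeffMap (IsLocalRing.residue A) s ≠ 0 ∧
        f * ⟨_, hs⟩ = ⟨_, hP⟩ := by
  obtain ⟨f, hf⟩ := exists_isKummerPair (Pic0.mem_torsion.mpr hx)
  obtain ⟨a, P, s, hPF, hsF, ha, hP, hs, heq⟩ := hS f hf.ne_zero
  exact ⟨algebraMap (AlgebraicClosure ℚ) (laurentBaseChange (AlgebraicClosure ℚ) F₀) a * f, P, s,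
    hPF, hsF, TorsionESK.isKummerPair_const_mul hf ha, hP, hs, heq⟩

/-- **Inertia acts trivially on torsion** (from the Kummer root statement). -/
theorem inertia_smul_eq (hS : IntegralScaling F₀ A) {m : ℕ} (hm : m ≠ 0)
    (hK : KummerRootF F₀ A m)
    (τ : AlgebraicClosure ℚ ≃ₐ[ℚ] AlgebraicClosure ℚ) (hτ : τ ∈ A.inertiaSubgroupIn ℚ)
    (x : Pic0 (AlgebraicClosure ℚ) (laurentBaseChange (AlgebraicClosure ℚ) F₀))
    (hx : (m : ℤ) • x = 0) : τ • x = x := by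
  obtain ⟨f, P, s, hPF, hsF, hf, hP, hs, hfs⟩ := exists_integral_kummerPair hS hx
  obtain ⟨hd, hres⟩ := resAut_eq_one_of_mem_inertia A hτ
  set G := arithmeticGalois F₀ τ with hG
  obtain ⟨P1, hP1, hGP, hrP1⟩ := exists_galois_smul (F₀ := F₀) ⟨τ, hd⟩ P hPF
  obtain ⟨s1, hs1, hGs, hrs1⟩ := exists_galois_smul (F₀ := F₀) ⟨τ, hd⟩ s hsF
  have hid : ∀ u : LaurentSeries (IsLocalRing.ResidueField A),
      coeffMap ((resAut A ⟨τ, hd⟩ : IsLocalRing.ResidueField A ≃+* IsLocalRing.ResidueField A) :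
        IsLocalRing.ResidueField A →+* IsLocalRing.ResidueField A) u = u := by
    intro u
    rw [hres]
    exact coeffMap_id u
  rw [hid] at hrP1 hrs1
  have hGf : IsKummerPair m (τ • x) (G • f) := TorsionESK.isKummerPair_semilinear_smul hf G
  have hpair : IsKummerPair m (x + -(τ • x)) (f * (G • f)⁻¹) := hf.add hGf.neg
  have hGf0 : G • f ≠ 0 := hGf.ne_zero
  have hGfs : G • f * ⟨_, hs1⟩ = ⟨_, hP1⟩ := by
    rw [← hGs, ← hGP, ← smul_mul', hfs]
  have hy : coeffMap A.subtype (P * s1) ∈ laurentBaseChange (AlgebraicClosure ℚ) F₀ := by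
    rw [map_mul]
    exact mul_mem hPF hs1
  have hz : coeffMap A.subtype (s * P1) ∈ laurentBaseChange (AlgebraicClosure ℚ) F₀ := by
    rw [map_mul]
    exact mul_mem hsF hP1
  have h0 : x + -(τ • x) = 0 := by
    refine eq_zero_of_ratio hm hK hpair (P * s1) (s * P1) hy hz ?_ ?_ ?_
    · rw [map_mul, hrP1]
      exact mul_ne_zero hs hP
    · rw [map_mul, map_mul, hrP1, hrs1, mul_comm]
    · have e1 : (⟨_, hz⟩ : laurentBaseChange (AlgebraicClosure ℚ) F₀) = ⟨_, hsF⟩ * ⟨_, hP1⟩ :=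
        Subtype.ext (map_mul _ _ _)
      have e2 : (⟨_, hy⟩ : laurentBaseChange (AlgebraicClosure ℚ) F₀) = ⟨_, hPF⟩ * ⟨_, hs1⟩ :=
        Subtype.ext (map_mul _ _ _)
      rw [e1, e2, ← hfs, ← hGfs]
      field_simp
  have h1 : x = τ • x := by
    have := eq_neg_of_add_eq_zero_left h0
    rwa [neg_neg] at this
  exact h1.symm

/-! ### The Hecke congruence data and the Frobenius relation -/

variable (F₀ A)

/-- **The Hecke congruence at `ℓ`** for `ℚ̄·F₀`, on `m`-torsion: an operator `T` on `J` with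
Kummer transfer `NT` (in the modular case: `NT = Nm_α ∘ β`), two operators `D₁, D₂` on `J`
with Kummer transfers `δ₁, δ₂` which commute with the Galois action and preserve
`A`-integrality and nonzero reduction, and the congruence
`red (NT y)(q^ℓ) = red (δ₁ y)(q^{ℓ²}) · red (δ₂ y)(q)^ℓ` for `A`-integral `y`. -/
structure HeckeCong (ℓ m : ℕ) [NeZero ℓ] where
  /-- the Hecke operator -/
  T : Pic0 (AlgebraicClosure ℚ) (laurentBaseChange (AlgebraicClosure ℚ) F₀) →+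
    Pic0 (AlgebraicClosure ℚ) (laurentBaseChange (AlgebraicClosure ℚ) F₀)
  /-- the operator in front of `ℓ` -/
  D₁ : Pic0 (AlgebraicClosure ℚ) (laurentBaseChange (AlgebraicClosure ℚ) F₀) →+
    Pic0 (AlgebraicClosure ℚ) (laurentBaseChange (AlgebraicClosure ℚ) F₀)
  /-- the operator in front of `σ²` -/
  D₂ : Pic0 (AlgebraicClosure ℚ) (laurentBaseChange (AlgebraicClosure ℚ) F₀) →+
    Pic0 (AlgebraicClosure ℚ) (laurentBaseChange (AlgebraicClosure ℚ) F₀)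
  /-- Kummer transfer of `T` -/
  NT : laurentBaseChange (AlgebraicClosure ℚ) F₀ →* laurentBaseChange (AlgebraicClosure ℚ) F₀
  /-- Kummer transfer of `D₁` -/
  δ₁ : laurentBaseChange (AlgebraicClosure ℚ) F₀ →* laurentBaseChange (AlgebraicClosure ℚ) F₀
  /-- Kummer transfer of `D₂` -/
  δ₂ : laurentBaseChange (AlgebraicClosure ℚ) F₀ →* laurentBaseChange (AlgebraicClosure ℚ) F₀
  kummer_T : ∀ {x : Pic0 (AlgebraicClosure ℚ) (laurentBaseChange (AlgebraicClosure ℚ) F₀)}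
    {f : laurentBaseChange (AlgebraicClosure ℚ) F₀},
    IsKummerPair m x f → IsKummerPair m (T x) (NT f)
  kummer_D₁ : ∀ {x : Pic0 (AlgebraicClosure ℚ) (laurentBaseChange (AlgebraicClosure ℚ) F₀)}
    {f : laurentBaseChange (AlgebraicClosure ℚ) F₀},
    IsKummerPair m x f → IsKummerPair m (D₁ x) (δ₁ f)
  kummer_D₂ : ∀ {x : Pic0 (AlgebraicClosure ℚ) (laurentBaseChange (AlgebraicClosure ℚ) F₀)}
    {f : laurentBaseChange (AlgebraicClosure ℚ) F₀},
    IsKummerPair m x f → IsKummerPair m (D₂ x) (δ₂ f)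
  galois_δ₁ : ∀ (σ : AlgebraicClosure ℚ ≃ₐ[ℚ] AlgebraicClosure ℚ)
    (f : laurentBaseChange (AlgebraicClosure ℚ) F₀),
    δ₁ (arithmeticGalois F₀ σ • f) = arithmeticGalois F₀ σ • δ₁ f
  galois_δ₂ : ∀ (σ : AlgebraicClosure ℚ ≃ₐ[ℚ] AlgebraicClosure ℚ)
    (f : laurentBaseChange (AlgebraicClosure ℚ) F₀),
    δ₂ (arithmeticGalois F₀ σ • f) = arithmeticGalois F₀ σ • δ₂ f
  integral_δ₁ : ∀ (y : LaurentSeries A)
    (hy : coeffMap A.subtype y ∈ laurentBaseChange (AlgebraicClosure ℚ) F₀),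
    coeffMap (IsLocalRing.residue A) y ≠ 0 →
    ∃ (y' : LaurentSeries A)
      (hy' : coeffMap A.subtype y' ∈ laurentBaseChange (AlgebraicClosure ℚ) F₀),
      δ₁ ⟨_, hy⟩ = ⟨_, hy'⟩ ∧ coeffMap (IsLocalRing.residue A) y' ≠ 0
  integral_δ₂ : ∀ (y : LaurentSeries A)
    (hy : coeffMap A.subtype y ∈ laurentBaseChange (AlgebraicClosure ℚ) F₀),
    coeffMap (IsLocalRing.residue A) y ≠ 0 →
    ∃ (y' : LaurentSeries A)
      (hy' : coeffMap A.subtype y' ∈ laurentBaseChange (AlgebraicClosure ℚ) F₀),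
      δ₂ ⟨_, hy⟩ = ⟨_, hy'⟩ ∧ coeffMap (IsLocalRing.residue A) y' ≠ 0
  congruence : ∀ (y y₁ y₂ : LaurentSeries A)
    (hy : coeffMap A.subtype y ∈ laurentBaseChange (AlgebraicClosure ℚ) F₀)
    (hy₁ : coeffMap A.subtype y₁ ∈ laurentBaseChange (AlgebraicClosure ℚ) F₀)
    (hy₂ : coeffMap A.subtype y₂ ∈ laurentBaseChange (AlgebraicClosure ℚ) F₀),
    δ₁ ⟨_, hy⟩ = ⟨_, hy₁⟩ → δ₂ ⟨_, hy⟩ = ⟨_, hy₂⟩ →
    ∃ (g : LaurentSeries A)
      (hg : coeffMap A.subtype g ∈ laurentBaseChange (AlgebraicClosure ℚ) F₀),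
      NT ⟨_, hy⟩ = ⟨_, hg⟩ ∧
      qExpand (IsLocalRing.ResidueField A) ℓ (coeffMap (IsLocalRing.residue A) g) =
        qExpand (IsLocalRing.ResidueField A) (ℓ * ℓ) (coeffMap (IsLocalRing.residue A) y₁) *
          (coeffMap (IsLocalRing.residue A) y₂) ^ ℓ

variable {F₀ A}

/-- The shape of the reduction of the norm, solved for the norm (two series). -/
theorem eq_of_qExpand_eq₂ {k : Type*} [Field k] (ℓ : ℕ) [NeZero ℓ] [ExpChar k ℓ]
    (u₁ u₂ g : LaurentSeries k)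
    (h : qExpand k ℓ g = qExpand k (ℓ * ℓ) (coeffMap (frobenius k ℓ) u₁) *
      (coeffMap (frobenius k ℓ) u₂) ^ ℓ) :
    g = u₁ ^ ℓ * coeffMap (frobenius k ℓ) (coeffMap (frobenius k ℓ) u₂) := by
  apply qExpand_injective ℓ
  rw [h, map_mul, ← qExpand_qExpand, ← FrobFibre.pow_char_eq_qExpand ℓ u₁,
    ← FrobFibre.pow_char_eq_qExpand ℓ (coeffMap (frobenius k ℓ) u₂)]

/-- **The Eichler–Shimura relation on torsion** (from the Kummer root statement), with diamond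
operators: for a Frobenius element `σ` of `A` over `ℓ`,
`σ² D₂ x - T (σ x) + ℓ D₁ x = 0` on `J[m]`. -/
theorem frobenius_relation (hS : IntegralScaling F₀ A) (ℓ : ℕ) [NeZero ℓ] (hℓ : ℓ.Prime)
    (hA : A.LiesOverPrime ℓ) {m : ℕ} (hm : m ≠ 0) (hK : KummerRootF F₀ A m)
    (C : HeckeCong F₀ A ℓ m)
    (σ : AlgebraicClosure ℚ ≃ₐ[ℚ] AlgebraicClosure ℚ) (hσ : A.IsFrobeniusAt σ ℓ)
    (x : Pic0 (AlgebraicClosure ℚ) (laurentBaseChange (AlgebraicClosure ℚ) F₀))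
    (hx : (m : ℤ) • x = 0) :
    σ • σ • C.D₂ x - C.T (σ • x) + ℓ • C.D₁ x = 0 := by
  haveI : Fact ℓ.Prime := ⟨hℓ⟩
  haveI hchar : CharP (IsLocalRing.ResidueField A) ℓ :=
    ConjAnalytic.charP_residueField_of_liesOver A hℓ hA
  haveI : ExpChar (IsLocalRing.ResidueField A) ℓ := ExpChar.prime hℓ
  obtain ⟨f, P, s, hPF, hsF, hf, hP, hs, hfs⟩ := exists_integral_kummerPair hS hx
  have hd := hσ.mem_decompositionSubgroup
  have hφ : ((resAut A ⟨σ, hd⟩ : IsLocalRing.ResidueField A ≃+* IsLocalRing.ResidueField A) :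
      IsLocalRing.ResidueField A →+* IsLocalRing.ResidueField A) =
      frobenius (IsLocalRing.ResidueField A) ℓ :=
    RingHom.ext fun u => by
      rw [frobenius_def]
      exact resAut_apply_of_isFrobeniusAt A hσ u
  have hfrob_ne : ∀ u : LaurentSeries (IsLocalRing.ResidueField A), u ≠ 0 →
      coeffMap (frobenius (IsLocalRing.ResidueField A) ℓ) u ≠ 0 := fun u hu h0 =>
    hu ((coeffMap_eq_zero_iff_of_injective _ (frobenius_inj _ ℓ) _).mp h0)
  set G := arithmeticGalois F₀ σ with hG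
  -- the diamonds of `P`, `s`
  obtain ⟨Pa, hPa, hδ₁P, hPa0⟩ := C.integral_δ₁ P hPF hP
  obtain ⟨sa, hsa, hδ₁s, hsa0⟩ := C.integral_δ₁ s hsF hs
  obtain ⟨Pb, hPb, hδ₂P, hPb0⟩ := C.integral_δ₂ P hPF hP
  obtain ⟨sb, hsb, hδ₂s, hsb0⟩ := C.integral_δ₂ s hsF hs
  -- Galois conjugates
  obtain ⟨P1, hP1, hGP, hrP1⟩ := exists_galois_smul (F₀ := F₀) ⟨σ, hd⟩ P hPF
  obtain ⟨s1, hs1, hGs, hrs1⟩ := exists_galois_smul (F₀ := F₀) ⟨σ, hd⟩ s hsF
  obtain ⟨Pa1, hPa1, hGPa, hrPa1⟩ := exists_galois_smul (F₀ := F₀) ⟨σ, hd⟩ Pa hPa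
  obtain ⟨sa1, hsa1, hGsa, hrsa1⟩ := exists_galois_smul (F₀ := F₀) ⟨σ, hd⟩ sa hsa
  obtain ⟨Pb1, hPb1, hGPb, hrPb1⟩ := exists_galois_smul (F₀ := F₀) ⟨σ, hd⟩ Pb hPb
  obtain ⟨sb1, hsb1, hGsb, hrsb1⟩ := exists_galois_smul (F₀ := F₀) ⟨σ, hd⟩ sb hsb
  obtain ⟨Pb2, hPb2, hGPb1, hrPb2⟩ := exists_galois_smul (F₀ := F₀) ⟨σ, hd⟩ Pb1 hPb1
  obtain ⟨sb2, hsb2, hGsb1, hrsb2⟩ := exists_galois_smul (F₀ := F₀) ⟨σ, hd⟩ sb1 hsb1
  rw [hφ] at hrP1 hrs1 hrPa1 hrsa1 hrPb1 hrsb1 hrPb2 hrsb2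
  -- the diamonds of the conjugates
  have hδ₁P1 : C.δ₁ ⟨_, hP1⟩ = ⟨_, hPa1⟩ := by rw [← hGP, C.galois_δ₁, hδ₁P, hGPa]
  have hδ₁s1 : C.δ₁ ⟨_, hs1⟩ = ⟨_, hsa1⟩ := by rw [← hGs, C.galois_δ₁, hδ₁s, hGsa]
  have hδ₂P1 : C.δ₂ ⟨_, hP1⟩ = ⟨_, hPb1⟩ := by rw [← hGP, C.galois_δ₂, hδ₂P, hGPb]
  have hδ₂s1 : C.δ₂ ⟨_, hs1⟩ = ⟨_, hsb1⟩ := by rw [← hGs, C.galois_δ₂, hδ₂s, hGsb]
  -- the norms
  obtain ⟨gP, hgP, hnormP, hredP⟩ := C.congruence P1 Pa1 Pb1 hP1 hPa1 hPb1 hδ₁P1 hδ₂P1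
  obtain ⟨gs, hgs, hnorms, hreds⟩ := C.congruence s1 sa1 sb1 hs1 hsa1 hsb1 hδ₁s1 hδ₂s1
  rw [hrPa1, hrPb1] at hredP
  rw [hrsa1, hrsb1] at hreds
  have hgP' := eq_of_qExpand_eq₂ ℓ _ _ _ hredP
  have hgs' := eq_of_qExpand_eq₂ ℓ _ _ _ hreds
  rw [hrPb1] at hrPb2
  rw [hrsb1] at hrsb2
  rw [← hrPb2] at hgP'
  rw [← hrsb2] at hgs'
  have hPb2ne : coeffMap (IsLocalRing.residue A) Pb2 ≠ 0 := by
    rw [hrPb2]
    exact hfrob_ne _ (hfrob_ne _ hPb0)
  have hsb2ne : coeffMap (IsLocalRing.residue A) sb2 ≠ 0 := by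
    rw [hrsb2]
    exact hfrob_ne _ (hfrob_ne _ hsb0)
  -- Kummer pairs
  have hGf : IsKummerPair m (σ • x) (G • f) := TorsionESK.isKummerPair_semilinear_smul hf G
  have hD₂f : IsKummerPair m (C.D₂ x) (C.δ₂ f) := C.kummer_D₂ hf
  have hGD₂f : IsKummerPair m (σ • C.D₂ x) (G • C.δ₂ f) :=
    TorsionESK.isKummerPair_semilinear_smul hD₂f G
  have hGGD₂f : IsKummerPair m (σ • σ • C.D₂ x) (G • G • C.δ₂ f) :=
    TorsionESK.isKummerPair_semilinear_smul hGD₂f G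
  have hT : IsKummerPair m (C.T (σ • x)) (C.NT (G • f)) := C.kummer_T hGf
  have hD₁f : IsKummerPair m (C.D₁ x) (C.δ₁ f) := C.kummer_D₁ hf
  have hℓx : IsKummerPair m (ℓ • C.D₁ x) (C.δ₁ f ^ ℓ) := hD₁f.nsmul ℓ
  have hpair := (hGGD₂f.add hT.neg).add hℓx
  have hT0 := hT.ne_zero
  -- the transforms of `f * s = P`
  have hGfs : G • f * ⟨_, hs1⟩ = ⟨_, hP1⟩ := by
    rw [← hGs, ← hGP, ← smul_mul', hfs]
  have hδ₁fs : C.δ₁ f * ⟨_, hsa⟩ = ⟨_, hPa⟩ := by
    rw [← hδ₁s, ← hδ₁P, ← map_mul, hfs]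
  have hδ₂fs : C.δ₂ f * ⟨_, hsb⟩ = ⟨_, hPb⟩ := by
    rw [← hδ₂s, ← hδ₂P, ← map_mul, hfs]
  have hGδ₂fs : G • C.δ₂ f * ⟨_, hsb1⟩ = ⟨_, hPb1⟩ := by
    rw [← hGsb, ← hGPb, ← smul_mul', hδ₂fs]
  have hGGδ₂fs : G • G • C.δ₂ f * ⟨_, hsb2⟩ = ⟨_, hPb2⟩ := by
    rw [← hGsb1, ← hGPb1, ← smul_mul', hGδ₂fs]
  have hnorm : C.NT (G • f) * ⟨_, hgs⟩ = ⟨_, hgP⟩ := by
    rw [← hnorms, ← hnormP, ← hGfs, map_mul]
  have hy : coeffMap A.subtype (Pb2 * gs * Pa ^ ℓ) ∈
      laurentBaseChange (AlgebraicClosure ℚ) F₀ := by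
    rw [map_mul, map_mul, map_pow]
    exact mul_mem (mul_mem hPb2 hgs) (pow_mem hPa ℓ)
  have hz : coeffMap A.subtype (sb2 * gP * sa ^ ℓ) ∈
      laurentBaseChange (AlgebraicClosure ℚ) F₀ := by
    rw [map_mul, map_mul, map_pow]
    exact mul_mem (mul_mem hsb2 hgP) (pow_mem hsa ℓ)
  have h0 := eq_zero_of_ratio hm hK hpair (Pb2 * gs * Pa ^ ℓ) (sb2 * gP * sa ^ ℓ) hy hz (by
      rw [map_mul, map_mul, map_pow, hgP']
      exact mul_ne_zero (mul_ne_zero hsb2ne (mul_ne_zero (pow_ne_zero ℓ hPa0) hPb2ne))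
        (pow_ne_zero ℓ hsa0)) (by
      rw [map_mul, map_mul, map_pow, map_mul, map_mul, map_pow, hgP', hgs']
      ring) (by
      have e1 : (⟨_, hz⟩ : laurentBaseChange (AlgebraicClosure ℚ) F₀) =
          ⟨_, hsb2⟩ * ⟨_, hgP⟩ * ⟨_, hsa⟩ ^ ℓ :=
        Subtype.ext (by
          show coeffMap A.subtype (sb2 * gP * sa ^ ℓ) =
            coeffMap A.subtype sb2 * coeffMap A.subtype gP * coeffMap A.subtype sa ^ ℓ
          rw [map_mul, map_mul, map_pow])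
      have e2 : (⟨_, hy⟩ : laurentBaseChange (AlgebraicClosure ℚ) F₀) =
          ⟨_, hPb2⟩ * ⟨_, hgs⟩ * ⟨_, hPa⟩ ^ ℓ :=
        Subtype.ext (by
          show coeffMap A.subtype (Pb2 * gs * Pa ^ ℓ) =
            coeffMap A.subtype Pb2 * coeffMap A.subtype gs * coeffMap A.subtype Pa ^ ℓ
          rw [map_mul, map_mul, map_pow])
      rw [e1, e2, ← hGGδ₂fs, ← hnorm, ← hδ₁fs, mul_pow]
      field_simp)
  rw [sub_eq_add_neg]
  exact h0

end Fermat.Agent.G1.Cong
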