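import Fermat.Agent.G1.Wire1
import Fermat.Agent.G1.ConjLevel1
import Fermat.Agent.G1.Dict.FFShapes
import Fermat.Agent.G1.V.PackCong
import Fermat.Agent.G1.Cong.Final1

/-!
# G1 / CONG: the bricks of `G1/Wire1.lean` owned by CONG

* `finRat_F1a` : `FinRat (F1a M a)` (from `G1/Dict/FFShapes.lean`);
* `cunit_eq_uStar` : the unit of `Final1` is the unit `uStar M p = ⟨p⟩⁻¹` of `KappaOps`;
* `conjAt` : `ConjAt M p hM (cunit M p)` (from `G1/ConjLevel1.lean`);
  (`Wire1.LevelBricks M hM p` itself is `Wire2.levelBricks`, helper73);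
* `unitDia_of_inputs`, `integralScaling_of_inputs`, **`localBricks_of_inputs`** :
  `Wire1.LocalBricks M l p A` from the packaging inputs `V.Pack.Inputs (ResidueField A) M 1`
  and `KummerRootF (F1a M 1) A l`;
* the unconditional forms of the outputs of `Final1`: `isKummerPair_congT'`, `qExpand_norm1'`,
  and `exists_heckeCongG1'`, `frobenius_relation1'` (modulo the local inputs).
-/

set_option autoImplicit false
set_option linter.unusedSectionVars false

noncomputable section

namespace Fermat.Agent.G1.Cong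

open ModularCurve AlgebraicCurve HahnSeries IntermediateField
open Fermat.Agent.S24 Fermat.Agent.S28 Fermat.Agent.S28.Chain
open Fermat.Agent.ESJ.Jac Fermat.Agent.ESJ.Jac.HeckeKummer Fermat.Agent.ESJ.Cong
open Fermat.Agent.Lib.Red Fermat.Agent.ESJ.RedK
open Fermat.Agent.G1.Dict Fermat.Agent.G1.Gal Fermat.Agent.G1.Jac

/-! ### (L3) finiteness -/

/-- **(L3)** `ℚ̄·F1a M a` is finite over `ℚ̄(j)`. -/
theorem finRat_F1a (M a : ℕ) [NeZero M] [NeZero a] : FinRat (F1a M a) :=
  FFGlue.exists_transcendental_finiteDimensional M a (AlgebraicClosure ℚ)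

/-! ### The unit -/

variable {M : ℕ} [NeZero M]

/-- The unit `c_p` of `Final1` is `⟨p⟩⁻¹ = uStar M p` of `KappaOps`. -/
theorem cunit_eq_uStar {p : ℕ} (hp : p.Prime) (hpM : ¬ p ∣ M) : cunit M p = uStar M p := by
  rw [uStar_eq hp hpM, cunit_eq ((Nat.Prime.coprime_iff_not_dvd hp).mpr hpM)]
  rfl

theorem coe_uStar_mul {p : ℕ} (hp : p.Prime) (hpM : ¬ p ∣ M) :
    ((uStar M p : (ZMod M)ˣ) : ZMod M) * (p : ZMod M) = 1 := by
  rw [← cunit_eq_uStar hp hpM]
  exact cunit_mul ((Nat.Prime.coprime_iff_not_dvd hp).mpr hpM)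

/-! ### (L4) the conjugate embeddings -/

/-- **(L4)** the conjugate embeddings of `ℚ̄·F1a M p` for the diamond of `cunit M p`. -/
theorem conjAt (p : ℕ) [NeZero p] (hM : 3 ≤ M) (hp : p.Prime) (hpM : ¬ p ∣ M) :
    ConjAt M p hM (cunit M p) := fun w hw =>
  ConjF1.hconj1 M p hp hpM (F1a_one_le M p) (vStable1 M p hM) (cunit M p)
    (cunit_mul ((Nat.Prime.coprime_iff_not_dvd hp).mpr hpM)) w hw

/-! ### The local bricks of `Wire1` from the packaging inputs -/

/-- The diamonds fix `ℚ̄·F0(M)` (in the form of `V.Pack.redTo_ringHom`). -/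
theorem diaK_algebraMap_pack (c : (ZMod M)ˣ)
    (x : laurentBaseChange (AlgebraicClosure ℚ) (modularFunctionFieldFull (M * 1))) :
    (diaK iotaK M 1 c : F1aK (AlgebraicClosure ℚ) M 1 →+* F1aK (AlgebraicClosure ℚ) M 1)
        (algebraMap ↥(laurentBaseChange (AlgebraicClosure ℚ) (modularFunctionFieldFull (M * 1)))
          ↥(laurentBaseChange (AlgebraicClosure ℚ) (F1a M 1)) x) =
      algebraMap ↥(laurentBaseChange (AlgebraicClosure ℚ) (modularFunctionFieldFull (M * 1)))
          ↥(laurentBaseChange (AlgebraicClosure ℚ) (F1a M 1)) x := by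
  refine diaK_eq_self_of_mem_base iotaK M 1 c _ ?_
  rw [V.Pack.coe_algebraMap_F1a]
  exact x.2

/-- **(L5)** the diamonds preserve the units of the Gauss valuation ring, from the packaging
inputs. -/
theorem unitDia_of_inputs (A : ValuationSubring (AlgebraicClosure ℚ))
    (hNk : ((M * 1 : ℕ) : IsLocalRing.ResidueField A) ≠ 0)
    (H : V.Pack.Inputs (IsLocalRing.ResidueField A) M 1) : UnitDia M A := by
  intro c f u hu hf
  exact V.Pack.redTo_ringHom (A := A) (π := IsLocalRing.residue A) residueA_eq_zero hNk H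
    (diaK iotaK M 1 c : F1aK (AlgebraicClosure ℚ) M 1 →+* F1aK (AlgebraicClosure ℚ) M 1)
    (diaK_algebraMap_pack c) f u hu hf

/-- **(L5)** integral scaling from the packaging inputs. -/
theorem integralScaling_of_inputs (A : ValuationSubring (AlgebraicClosure ℚ))
    (hNk : ((M * 1 : ℕ) : IsLocalRing.ResidueField A) ≠ 0)
    (H : V.Pack.Inputs (IsLocalRing.ResidueField A) M 1) : IntegralScaling (F1a M 1) A :=
  V.Pack.integralScaling_F1a A M 1 hNk H

theorem natCast_mul_one_residue_ne_zero {p : ℕ} (hp : p.Prime) (hpM : ¬ p ∣ M)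
    (A : ValuationSubring (AlgebraicClosure ℚ)) (hA : A.LiesOverPrime p) :
    ((M * 1 : ℕ) : IsLocalRing.ResidueField A) ≠ 0 := by
  rw [mul_one]
  have : CharP (IsLocalRing.ResidueField A) p :=
    ConjAnalytic.charP_residueField_of_liesOver A hp hA
  exact fun h0 => hpM ((CharP.cast_eq_zero_iff (IsLocalRing.ResidueField A) p M).mp h0)

/-- **The local bricks of `G1/Wire1.lean`** at a valuation ring `A` over a prime `p ∤ M`, from
the packaging inputs and the Kummer-root property. -/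
theorem localBricks_of_inputs (M l : ℕ) [NeZero M] {p : ℕ} (hp : p.Prime) (hpM : ¬ p ∣ M)
    (A : ValuationSubring (AlgebraicClosure ℚ)) (hA : A.LiesOverPrime p)
    (H : V.Pack.Inputs (IsLocalRing.ResidueField A) M 1)
    (hK : KummerRootF (F1a M 1) A l) : Wire1.LocalBricks M l p A where
  scaling := integralScaling_of_inputs A (natCast_mul_one_residue_ne_zero hp hpM A hA) H
  kummerRoot := hK
  unit_dia := fun f u hu hf =>
    unitDia_of_inputs A (natCast_mul_one_residue_ne_zero hp hpM A hA) H (uStar M p) f u hu hf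

/-! ### The outputs of `Final1`, with the global inputs discharged -/

/-- `congD M p` is the diamond operator `Wire1.DOp M p` at a prime `p ∤ M`. -/
theorem congD_eq_DOp {p : ℕ} (hp : p.Prime) (hpM : ¬ p ∣ M) : congD M p = Wire1.DOp M p := by
  rw [congD, Wire1.DOp, Wire1.dia, cunit_eq_uStar hp hpM]

/-- `congT M p` is the Hecke operator `Wire1.TOp M p`. -/
theorem congT_eq_TOp (p : ℕ) [NeZero p] (hM : 3 ≤ M) : congT M p = Wire1.TOp M p := by
  rw [Wire1.TOp_eq M hM p, congT_eq p hM (finRat_F1a M 1) (finRat_F1a M p)]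

/-- **The Kummer transfer of `T_p`** is `Nm_α ∘ V_p` (unconditional). -/
theorem isKummerPair_congT' (p : ℕ) [NeZero p] (hM : 3 ≤ M) {n : ℕ}
    {x : Pic0 (AlgebraicClosure ℚ) (F1aK (AlgebraicClosure ℚ) M 1)}
    {f : F1aK (AlgebraicClosure ℚ) M 1} (h : IsKummerPair n x f) :
    IsKummerPair n (congT M p x)
      (normAlong (GaloisOps.inclBar (AlgebraicClosure ℚ) (F1a_one_le M p))
        (GaloisOps.vBar (AlgebraicClosure ℚ) p (vStable1 M p hM) f)) :=
  isKummerPair_congT p hM (finRat_F1a M 1) (finRat_F1a M p) h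

/-- **The norm formula of `X₁(M)`** (unconditional), with the diamond of `uStar M p = ⟨p⟩⁻¹`:
`Nm_α (V_p y)(t^p) = y(t^{p²}) · ∏_{b<p} (δ y)(ζ^b t)`. -/
theorem qExpand_norm1' (p : ℕ) [NeZero p] (hM : 3 ≤ M) (hp : p.Prime) (hpM : ¬ p ∣ M)
    (ζ : (AlgebraicClosure ℚ)ˣ) (hζ : IsPrimitiveRoot ζ p)
    (y : F1aK (AlgebraicClosure ℚ) M 1) :
    qExpand (AlgebraicClosure ℚ) p
        ((normAlong (GaloisOps.inclBar (AlgebraicClosure ℚ) (F1a_one_le M p))
          (GaloisOps.vBar (AlgebraicClosure ℚ) p (vStable1 M p hM) y) :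
            F1aK (AlgebraicClosure ℚ) M 1) : LaurentSeries (AlgebraicClosure ℚ)) =
      qExpand (AlgebraicClosure ℚ) (p * p) (y : LaurentSeries (AlgebraicClosure ℚ)) *
        ∏ b ∈ Finset.range p,
          rot (ζ ^ b) ((diaK iotaK M 1 (uStar M p) y : F1aK (AlgebraicClosure ℚ) M 1) :
            LaurentSeries (AlgebraicClosure ℚ)) := by
  rw [← cunit_eq_uStar hp hpM]
  exact qExpand_norm1 p hM hp hpM (conjAt p hM hp hpM) ζ hζ y

/-- **The Hecke congruence data of `X₁(M)` at `p ∤ M`**, modulo the local inputs at `A`. -/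
theorem exists_heckeCongG1' (p : ℕ) [NeZero p] (hM : 3 ≤ M) (hp : p.Prime) (hpM : ¬ p ∣ M)
    (l : ℕ) (A : ValuationSubring (AlgebraicClosure ℚ)) (hA : A.LiesOverPrime p)
    (H : V.Pack.Inputs (IsLocalRing.ResidueField A) M 1) :
    ∃ C : HeckeCongG (F1a M 1) A p l,
      C.T = congT M p ∧ C.D₁ = AddMonoidHom.id _ ∧ C.D₂ = congD M p :=
  exists_heckeCongG1 p hM hp hpM l A hA
    (integralScaling_of_inputs A (natCast_mul_one_residue_ne_zero hp hpM A hA) H)
    (finRat_F1a M 1) (finRat_F1a M p) (conjAt p hM hp hpM)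
    (unitDia_of_inputs A (natCast_mul_one_residue_ne_zero hp hpM A hA) H)

/-- **The Eichler–Shimura relation of `X₁(M)` at `p ∤ M`** on `J[l]`, modulo the local inputs
at `A`: `σ² (congD M p x) - congT M p (σ x) + p x = 0` for a Frobenius element `σ` of `A`. -/
theorem frobenius_relation1' (p : ℕ) [NeZero p] (hM : 3 ≤ M) (hp : p.Prime) (hpM : ¬ p ∣ M)
    {l : ℕ} (hl : l ≠ 0) (A : ValuationSubring (AlgebraicClosure ℚ)) (hA : A.LiesOverPrime p)
    (H : V.Pack.Inputs (IsLocalRing.ResidueField A) M 1)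
    (hK : KummerRootF (F1a M 1) A l)
    (σ : AlgebraicClosure ℚ ≃ₐ[ℚ] AlgebraicClosure ℚ) (hσ : A.IsFrobeniusAt σ p)
    (x : Pic0 (AlgebraicClosure ℚ) (F1aK (AlgebraicClosure ℚ) M 1))
    (hx : (l : ℤ) • x = 0) :
    σ • σ • congD M p x - congT M p (σ • x) + p • x = 0 :=
  frobenius_relation1 p hM hp hpM hl A hA
    (integralScaling_of_inputs A (natCast_mul_one_residue_ne_zero hp hpM A hA) H) hK
    (finRat_F1a M 1) (finRat_F1a M p) (conjAt p hM hp hpM)
    (unitDia_of_inputs A (natCast_mul_one_residue_ne_zero hp hpM A hA) H) σ hσ x hx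

end Fermat.Agent.G1.Cong
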