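import Fermat.Agent.G1.Cong.TorsionESAbs

/-!
# G1 / CONG: the abstract Hecke congruence data, instantiated for `X₀(N)`

A consistency check of the abstraction of `TorsionESAbs.lean`: for `F₀ = ℚ(X₀(N))`,
`T = T_ℓ`, `D₁ = D₂ = id`, `NT = Nm_α ∘ β`, the structure `HeckeCong` is inhabited
(`heckeCong_gamma0`), and `frobenius_relation` specializes to the relation
`σ² - T_ℓ σ + ℓ = 0` of `ESJ/Cong/TorsionESK.lean` (`frobenius_relation_gamma0`).
-/

set_option autoImplicit false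

noncomputable section

namespace Fermat.Agent.G1.Cong

open ModularCurve AlgebraicCurve HahnSeries
open Fermat.Agent.ESJ.Jac Fermat.Agent.ESJ.Jac.HeckeKummer Fermat.Agent.ESJ.Cong

/-- `IntegralScaling` for `X₀(N)` (from `GoodV`). -/
theorem integralScaling_gamma0 (N : ℕ) [NeZero N] (A : ValuationSubring (AlgebraicClosure ℚ))
    (hNk : (N : IsLocalRing.ResidueField A) ≠ 0) :
    IntegralScaling (modularFunctionFieldFull N) A := by
  intro f hf
  have hf0 : (f : LaurentSeries (AlgebraicClosure ℚ)) ≠ 0 := fun h => hf (Subtype.ext h)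
  obtain ⟨a, P, s, ha, hPF, hsF, hP, hs, -, -, heq⟩ :=
    Fermat.Agent.Lib.Red.goodV_full' A (IsLocalRing.residue A) N hNk
      (f : LaurentSeries (AlgebraicClosure ℚ)) f.2 hf0
  refine ⟨a, P, s, hPF, hsF, ha, hP, hs, Subtype.ext ?_⟩
  have h1 : ((algebraMap (AlgebraicClosure ℚ) (modularFunctionFieldBar N) a :
      modularFunctionFieldBar N) : LaurentSeries (AlgebraicClosure ℚ)) = HahnSeries.C a := by
    rw [Fermat.Agent.Lib.Red.C_eq_algebraMap]
    rfl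
  show ((algebraMap (AlgebraicClosure ℚ) (modularFunctionFieldBar N) a :
      modularFunctionFieldBar N) : LaurentSeries (AlgebraicClosure ℚ)) *
        (f : LaurentSeries (AlgebraicClosure ℚ)) * coeffMap A.subtype s = coeffMap A.subtype P
  rw [h1]
  exact heq

/-- The Hecke congruence data of `X₀(N)` at a prime `ℓ ∤ N`. -/
def heckeCong_gamma0 (N ℓ : ℕ) [NeZero N] [NeZero ℓ] (hℓ : ℓ.Prime) (hℓN : ¬ ℓ ∣ N)
    (A : ValuationSubring (AlgebraicClosure ℚ)) (hA : A.LiesOverPrime ℓ) (m : ℕ) :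
    HeckeCong (modularFunctionFieldFull N) A ℓ m where
  T := heckeOperatorBar N ⟨ℓ, hℓ⟩
  D₁ := AddMonoidHom.id _
  D₂ := AddMonoidHom.id _
  NT := (normAlong (heckeAlphaBar (AlgebraicClosure ℚ) N ℓ)).comp
    (heckeBetaBar (AlgebraicClosure ℚ) N ℓ : modularFunctionFieldBar N →*
      modularFunctionFieldBar (N * ℓ))
  δ₁ := MonoidHom.id _
  δ₂ := MonoidHom.id _
  kummer_T := fun h => isKummerPair_heckeOperatorBar N ⟨ℓ, hℓ⟩ h
  kummer_D₁ := fun h => h
  kummer_D₂ := fun h => h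
  galois_δ₁ := fun _ _ => rfl
  galois_δ₂ := fun _ _ => rfl
  integral_δ₁ := fun y hy h0 => ⟨y, hy, rfl, h0⟩
  integral_δ₂ := fun y hy h0 => ⟨y, hy, rfl, h0⟩
  congruence := fun y y₁ y₂ hy hy₁ hy₂ h₁ h₂ => by
    have e₁ : y = y₁ := eq_of_mk_eq h₁
    have e₂ : y = y₂ := eq_of_mk_eq h₂
    subst e₁
    subst e₂
    exact ConjAnalytic.norm_beta_reduction N ℓ hℓ hℓN A hA y hy

/-- The abstract relation recovers `σ² - T_ℓ σ + ℓ = 0` on `J₀(N)[m]`. -/
theorem frobenius_relation_gamma0 (N : ℕ) [NeZero N]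
    (A : ValuationSubring (AlgebraicClosure ℚ)) (ℓ : ℕ) (hℓ : ℓ.Prime)
    (hℓN : ¬ ℓ ∣ N) (hA : A.LiesOverPrime ℓ) {m : ℕ} (hm : m ≠ 0)
    (hK : KummerRootF (modularFunctionFieldFull N) A m)
    (σ : AlgebraicClosure ℚ ≃ₐ[ℚ] AlgebraicClosure ℚ) (hσ : A.IsFrobeniusAt σ ℓ)
    (x : JZero N) (hx : (m : ℤ) • x = 0) :
    σ • σ • x - heckeOperatorBar N ⟨ℓ, hℓ⟩ (σ • x) + ℓ • x = 0 := by
  haveI : NeZero ℓ := ⟨hℓ.ne_zero⟩
  haveI hchar : CharP (IsLocalRing.ResidueField A) ℓ :=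
    ConjAnalytic.charP_residueField_of_liesOver A hℓ hA
  have hNk : (N : IsLocalRing.ResidueField A) ≠ 0 := by
    rw [Ne, CharP.cast_eq_zero_iff (IsLocalRing.ResidueField A) ℓ]
    exact hℓN
  exact frobenius_relation (integralScaling_gamma0 N A hNk) ℓ hℓ hA hm hK
    (heckeCong_gamma0 N ℓ hℓ hℓN A hA m) σ hσ x hx

end Fermat.Agent.G1.Cong
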