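import Fermat.Agent.G1.Cong.TorsionESGauss
import Fermat.Agent.G1.Cong.Gamma0Check
import Fermat.Agent.ESJ.Cong.ConjNormAnalytic

/-!
# G1 / CONG: the Gauss-ring Hecke congruence data, instantiated for `X₀(N)`

A consistency check of `TorsionESGauss.lean`: for `F₀ = ℚ(X₀(N))`, `T = T_ℓ`, `D = id`, the
builder `heckeCongGOfNorm` applies with the characteristic-zero norm formula
`ConjAnalytic.qExpand_norm_heckeBeta`, and `frobenius_relationG` specializes to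
`σ² - T_ℓ σ + ℓ = 0` on `J₀(N)[m]`.
-/

set_option autoImplicit false

noncomputable section

namespace Fermat.Agent.G1.Cong

open ModularCurve AlgebraicCurve HahnSeries
open Fermat.Agent.ESJ.Jac Fermat.Agent.ESJ.Jac.HeckeKummer Fermat.Agent.ESJ.Cong

/-- The Gauss-ring Hecke congruence data of `X₀(N)` at a prime `ℓ ∤ N`, through the builder. -/
def heckeCongG_gamma0 (N ℓ : ℕ) [NeZero N] [NeZero ℓ] (hℓ : ℓ.Prime) (hℓN : ¬ ℓ ∣ N)
    (A : ValuationSubring (AlgebraicClosure ℚ)) (hA : A.LiesOverPrime ℓ)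
    (hNk : (N : IsLocalRing.ResidueField A) ≠ 0) (m : ℕ) :
    HeckeCongG (modularFunctionFieldFull N) A ℓ m :=
  heckeCongGOfNorm (modularFunctionFieldFull N) (modularFunctionFieldFull (N * ℓ)) A
    (integralScaling_gamma0 N A hNk) ℓ m hℓ hA
    (heckeAlphaBar (AlgebraicClosure ℚ) N ℓ) (heckeBetaBar (AlgebraicClosure ℚ) N ℓ)
    (heckeOperatorBar N ⟨ℓ, hℓ⟩) (AddMonoidHom.id _) (MonoidHom.id _)
    (fun h => isKummerPair_heckeOperatorBar N ⟨ℓ, hℓ⟩ h) (fun h => h) (fun _ _ => rfl)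
    (fun _ u hu h => ⟨u, hu, h⟩)
    (fun ζ hζ y => ConjAnalytic.qExpand_norm_heckeBeta N ℓ hℓ hℓN ζ hζ y)

/-- The Gauss-ring relation recovers `σ² - T_ℓ σ + ℓ = 0` on `J₀(N)[m]`. -/
theorem frobenius_relationG_gamma0 (N : ℕ) [NeZero N]
    (A : ValuationSubring (AlgebraicClosure ℚ)) (ℓ : ℕ) (hℓ : ℓ.Prime)
    (hℓN : ¬ ℓ ∣ N) (hA : A.LiesOverPrime ℓ) {m : ℕ} (hm : m ≠ 0)
    (hK : KummerRootF (modularFunctionFieldFull N) A m)
    (σ : AlgebraicClosure ℚ ≃ₐ[ℚ] AlgebraicClosure ℚ) (hσ : A.IsFrobeniusAt σ ℓ)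
    (x : JZero N) (hx : (m : ℤ) • x = 0) :
    σ • σ • x - heckeOperatorBar N ⟨ℓ, hℓ⟩ (σ • x) + ℓ • x = 0 := by
  have : NeZero ℓ := ⟨hℓ.ne_zero⟩
  have hchar : CharP (IsLocalRing.ResidueField A) ℓ :=
    ConjAnalytic.charP_residueField_of_liesOver A hℓ hA
  have hNk : (N : IsLocalRing.ResidueField A) ≠ 0 := by
    rw [Ne, CharP.cast_eq_zero_iff (IsLocalRing.ResidueField A) ℓ]
    exact hℓN
  exact frobenius_relationG (integralScaling_gamma0 N A hNk) ℓ hℓ hA hm hK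
    (heckeCongG_gamma0 N ℓ hℓ hℓN A hA hNk m) σ hσ x hx

end Fermat.Agent.G1.Cong
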