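import Fermat.Agent.G1.Cong.LevelMaps

/-!
# G1 / CONG: the Hecke congruence data of an abstract level structure

Generic in `F₀ ≤ F₀'` (fields of rational Laurent series) with `V_ℓ F₀ ⊆ F₀'`:
`F = ℚ̄·F₀`, `F' = ℚ̄·F₀'`, `α = alphaOfLe` (inclusion), `β = betaOfStable` (`V_ℓ`),
`T = heckeTOfLevel = α_* β^*` (`corrTotal α β`), `δ : F → F` a "diamond" with Kummer transfer
`D` on `Pic⁰`.  Inputs:

* `hconj` : for every `ℓ`-th root of unity `w` an embedding `τ_w : F' → ℚ̄((t))` with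
  `τ_w ∘ α = (q ↦ t^ℓ)` and `τ_w ∘ β = (t ↦ w t) ∘ δ`;
* the degree bound `[F' : α F] ≤ ℓ + 1`.

Outputs:

* `embedding_family` : the `ℓ + 1` distinct embeddings of `F'` over `F`;
* `finrankAlong_alpha_eq` : `[F' : α F] = ℓ + 1`;
* `qExpand_norm_of_level` : `Nm_α (β y)(t^ℓ) = y(t^{ℓ²}) · ∏_{b<ℓ} (δ y)(ζ^b t)`;
* `heckeCongGOfLevel` : the structure `HeckeCongG F₀ A ℓ m` with `T = heckeTOfLevel`,
  `D₁ = id`, `D₂ = D`;
* `frobenius_relation_of_level` : `σ² D x - T (σ x) + ℓ x = 0` on `J[m]`;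
* `heckeTOfLevel_galois` : `T` commutes with the Galois action on torsion.
-/

set_option autoImplicit false
set_option linter.unusedSectionVars false

noncomputable section

namespace Fermat.Agent.G1.Cong

open ModularCurve AlgebraicCurve HahnSeries IntermediateField
open Fermat.Agent.S28 Fermat.Agent.S28.Chain
open Fermat.Agent.ESJ.Jac Fermat.Agent.ESJ.Jac.HeckeKummer Fermat.Agent.ESJ.Cong
open Fermat.Agent.Lib.Red Fermat.Agent.ESJ.RedK

/-! ### The embeddings and the degree -/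

section Embeddings

variable {F F' : IntermediateField (AlgebraicClosure ℚ) (LaurentSeries (AlgebraicClosure ℚ))}
  (ℓ : ℕ) [NeZero ℓ] (α β : F →ₐ[AlgebraicClosure ℚ] F') (δ : F → F)

/-- **The `ℓ + 1` embeddings of `F'` over `F`**: `q ↦ t^ℓ` on `F'` itself, and the `τ_{ζ^b}`. -/
theorem embedding_family (hℓ : ℓ.Prime)
    (hα : ∀ x : F, ((α x : F') : LaurentSeries (AlgebraicClosure ℚ)) = x)
    (hconj : ∀ w : (AlgebraicClosure ℚ)ˣ, w ^ ℓ = 1 →
      ∃ τ : F' →+* LaurentSeries (AlgebraicClosure ℚ),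
        (∀ x : F, τ (α x) =
          qExpand (AlgebraicClosure ℚ) ℓ (x : LaurentSeries (AlgebraicClosure ℚ))) ∧
        (∀ x : F, τ (β x) = rot w ((δ x : F) : LaurentSeries (AlgebraicClosure ℚ))))
    (hβ : ∀ x : F, ((β x : F') : LaurentSeries (AlgebraicClosure ℚ)) =
      qExpand (AlgebraicClosure ℚ) ℓ (x : LaurentSeries (AlgebraicClosure ℚ)))
    (x₀ : F) (hx₀ : ((δ x₀ : F) : LaurentSeries (AlgebraicClosure ℚ)) =
      jqModC (AlgebraicClosure ℚ))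
    (ζ : (AlgebraicClosure ℚ)ˣ) (hζ : IsPrimitiveRoot ζ ℓ) :
    ∃ σ : Option (Fin ℓ) → (F' →+* LaurentSeries (AlgebraicClosure ℚ)),
      Function.Injective σ ∧
      ∀ o (x : F), σ o (α x) =
        qExpand (AlgebraicClosure ℚ) ℓ (x : LaurentSeries (AlgebraicClosure ℚ)) := by
  have hex : ∀ b : Fin ℓ, ∃ τ : F' →+* LaurentSeries (AlgebraicClosure ℚ),
      (∀ x : F, τ (α x) =
        qExpand (AlgebraicClosure ℚ) ℓ (x : LaurentSeries (AlgebraicClosure ℚ))) ∧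
      (∀ x : F, τ (β x) = rot (ζ ^ b.1) ((δ x : F) : LaurentSeries (AlgebraicClosure ℚ))) :=
    fun b => hconj (ζ ^ b.1)
      (by rw [← pow_mul, mul_comm, pow_mul, hζ.pow_eq_one, one_pow])
  choose τ hτα hτβ using hex
  let τinf : F' →+* LaurentSeries (AlgebraicClosure ℚ) :=
    (qExpand (AlgebraicClosure ℚ) ℓ).comp F'.val.toRingHom
  let σ : Option (Fin ℓ) → (F' →+* LaurentSeries (AlgebraicClosure ℚ)) :=
    fun o => o.elim τinf τ
  have hσ : ∀ o (x : F), σ o (α x) =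
      qExpand (AlgebraicClosure ℚ) ℓ (x : LaurentSeries (AlgebraicClosure ℚ)) := by
    intro o x
    cases o with
    | none =>
      show qExpand (AlgebraicClosure ℚ) ℓ ((α x : F') : LaurentSeries (AlgebraicClosure ℚ)) =
        qExpand (AlgebraicClosure ℚ) ℓ (x : LaurentSeries (AlgebraicClosure ℚ))
      rw [hα]
    | some b => exact hτα b x
  have hℓ2 : ¬ ((ℓ : ℤ) ∣ -1) := by
    intro h
    have h1 : (ℓ : ℤ) ∣ 1 := (dvd_neg.mp h)
    have h2 : ℓ ∣ 1 := Int.natCast_dvd_natCast.mp (by exact_mod_cast h1)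
    exact hℓ.one_lt.ne' (Nat.dvd_one.mp h2)
  have hnone : (σ none (β x₀)).coeff (-1) = 0 := by
    show (qExpand (AlgebraicClosure ℚ) ℓ ((β x₀ : F') :
        LaurentSeries (AlgebraicClosure ℚ))).coeff (-1) = 0
    exact qExpand_coeff_of_not_dvd (R := AlgebraicClosure ℚ) (N := ℓ) _ hℓ2
  have hsome : ∀ b : Fin ℓ, (σ (some b) (β x₀)).coeff (-1) =
      (((ζ ^ b.1)⁻¹ : (AlgebraicClosure ℚ)ˣ) : AlgebraicClosure ℚ) := by
    intro b
    show (τ b (β x₀)).coeff (-1) = _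
    rw [hτβ b, hx₀, rot_jqModC_coeff_neg_one]
  refine ⟨σ, ?_, hσ⟩
  intro o o' h
  have hc := congrArg (fun φ : F' →+* LaurentSeries (AlgebraicClosure ℚ) =>
    (φ (β x₀)).coeff (-1)) h
  cases o with
  | none =>
    cases o' with
    | none => rfl
    | some b' =>
      rw [hnone, hsome] at hc
      exact absurd hc.symm (Units.ne_zero _)
  | some b =>
    cases o' with
    | none =>
      rw [hnone, hsome] at hc
      exact absurd hc (Units.ne_zero _)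
    | some b' =>
      rw [hsome, hsome] at hc
      have h1 : (ζ ^ b.1)⁻¹ = (ζ ^ b'.1)⁻¹ := Units.ext hc
      have h2 : ζ ^ b.1 = ζ ^ b'.1 := inv_injective h1
      have h3 : b.1 = b'.1 := hζ.pow_inj b.2 b'.2 h2
      rw [Fin.ext h3]

/-- **The degree of `α` is `ℓ + 1`** (upper bound + the embeddings). -/
theorem finrankAlong_alpha_eq (hℓ : ℓ.Prime)
    (hα : ∀ x : F, ((α x : F') : LaurentSeries (AlgebraicClosure ℚ)) = x)
    (hβ : ∀ x : F, ((β x : F') : LaurentSeries (AlgebraicClosure ℚ)) =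
      qExpand (AlgebraicClosure ℚ) ℓ (x : LaurentSeries (AlgebraicClosure ℚ)))
    (hfin : FiniteAlong (AlgebraicClosure ℚ) α)
    (hle : finrankAlong (AlgebraicClosure ℚ) α ≤ ℓ + 1)
    (hconj : ∀ w : (AlgebraicClosure ℚ)ˣ, w ^ ℓ = 1 →
      ∃ τ : F' →+* LaurentSeries (AlgebraicClosure ℚ),
        (∀ x : F, τ (α x) =
          qExpand (AlgebraicClosure ℚ) ℓ (x : LaurentSeries (AlgebraicClosure ℚ))) ∧
        (∀ x : F, τ (β x) = rot w ((δ x : F) : LaurentSeries (AlgebraicClosure ℚ))))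
    (x₀ : F) (hx₀ : ((δ x₀ : F) : LaurentSeries (AlgebraicClosure ℚ)) =
      jqModC (AlgebraicClosure ℚ)) :
    finrankAlong (AlgebraicClosure ℚ) α = ℓ + 1 := by
  haveI : NeZero (ℓ : AlgebraicClosure ℚ) := ⟨Nat.cast_ne_zero.mpr hℓ.ne_zero⟩
  obtain ⟨ζ0, hζ0⟩ := HasEnoughRootsOfUnity.exists_primitiveRoot (AlgebraicClosure ℚ) ℓ
  have hζ00 : ζ0 ≠ 0 := hζ0.ne_zero hℓ.ne_zero
  let ζ : (AlgebraicClosure ℚ)ˣ := Units.mk0 ζ0 hζ00
  have hζ : IsPrimitiveRoot ζ ℓ := IsPrimitiveRoot.coe_units_iff.mp hζ0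
  obtain ⟨σ, hinj, hσ⟩ := embedding_family ℓ α β δ hℓ hα hconj hβ x₀ hx₀ ζ hζ
  have hcard : Fintype.card (Option (Fin ℓ)) = ℓ + 1 := by
    rw [Fintype.card_option, Fintype.card_fin]
  have h := finrankAlong_eq_of_embeddings α
    ((qExpand (AlgebraicClosure ℚ) ℓ).comp F.val.toRingHom) σ (fun o x => hσ o x) hinj hfin
    (hle.trans hcard.ge)
  rw [h, hcard]

end Embeddings

/-! ### The level structure -/

section Level

variable {F₀ F₀' : IntermediateField ℚ (LaurentSeries ℚ)}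
  (A : ValuationSubring (AlgebraicClosure ℚ))

/-- The Hecke operator `T = α_* β^*` of the level structure `F₀ ≤ F₀'`, `V_ℓ F₀ ⊆ F₀'`. -/
def heckeTOfLevel (ℓ : ℕ) [NeZero ℓ] (hle : F₀ ≤ F₀') (hV : ∀ y ∈ F₀, qExpand ℚ ℓ y ∈ F₀') :
    Pic0 (AlgebraicClosure ℚ) ↥(laurentBaseChange (AlgebraicClosure ℚ) F₀) →+
      Pic0 (AlgebraicClosure ℚ) ↥(laurentBaseChange (AlgebraicClosure ℚ) F₀) :=
  corrTotal (alphaOfLe (AlgebraicClosure ℚ) hle) (betaOfStable (AlgebraicClosure ℚ) ℓ hV)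

/-- The Kummer transfer of `T`: `NT = Nm_α ∘ V_ℓ`. -/
def normTOfLevel (ℓ : ℕ) [NeZero ℓ] (hle : F₀ ≤ F₀') (hV : ∀ y ∈ F₀, qExpand ℚ ℓ y ∈ F₀') :
    ↥(laurentBaseChange (AlgebraicClosure ℚ) F₀) →*
      ↥(laurentBaseChange (AlgebraicClosure ℚ) F₀) :=
  (normAlong (alphaOfLe (AlgebraicClosure ℚ) hle)).comp
    (betaOfStable (AlgebraicClosure ℚ) ℓ hV :
      ↥(laurentBaseChange (AlgebraicClosure ℚ) F₀) →*
        ↥(laurentBaseChange (AlgebraicClosure ℚ) F₀'))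

theorem normTOfLevel_apply (ℓ : ℕ) [NeZero ℓ] (hle : F₀ ≤ F₀')
    (hV : ∀ y ∈ F₀, qExpand ℚ ℓ y ∈ F₀')
    (f : ↥(laurentBaseChange (AlgebraicClosure ℚ) F₀)) :
    normTOfLevel ℓ hle hV f =
      normAlong (alphaOfLe (AlgebraicClosure ℚ) hle)
        (betaOfStable (AlgebraicClosure ℚ) ℓ hV f) :=
  rfl

/-- `T` has Kummer transfer `NT`. -/
theorem isKummerPair_heckeTOfLevel (ℓ : ℕ) [NeZero ℓ] (hle : F₀ ≤ F₀')
    (hV : ∀ y ∈ F₀, qExpand ℚ ℓ y ∈ F₀')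
    (hcorr : CorrInputs (alphaOfLe (AlgebraicClosure ℚ) hle)
      (betaOfStable (AlgebraicClosure ℚ) ℓ hV)) {n : ℕ}
    {x : Pic0 (AlgebraicClosure ℚ) ↥(laurentBaseChange (AlgebraicClosure ℚ) F₀)}
    {f : ↥(laurentBaseChange (AlgebraicClosure ℚ) F₀)} (hf : IsKummerPair n x f) :
    IsKummerPair n (heckeTOfLevel ℓ hle hV x) (normTOfLevel ℓ hle hV f) :=
  isKummerPair_corrTotal hcorr hf

/-- `NT` commutes with the coefficientwise Galois action. -/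
theorem normTOfLevel_galois (ℓ : ℕ) [NeZero ℓ] (hle : F₀ ≤ F₀')
    (hV : ∀ y ∈ F₀, qExpand ℚ ℓ y ∈ F₀')
    (σ : AlgebraicClosure ℚ ≃ₐ[ℚ] AlgebraicClosure ℚ)
    (f : ↥(laurentBaseChange (AlgebraicClosure ℚ) F₀)) :
    normTOfLevel ℓ hle hV (arithmeticGalois F₀ σ • f) =
      arithmeticGalois F₀ σ • normTOfLevel ℓ hle hV f := by
  rw [normTOfLevel_apply, normTOfLevel_apply, betaOfStable_galois,
    normAlong_galois _ (alphaOfLe_galois (AlgebraicClosure ℚ) hle)]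

/-- **`T` commutes with the Galois action on torsion.** -/
theorem heckeTOfLevel_galois (ℓ : ℕ) [NeZero ℓ] (hle : F₀ ≤ F₀')
    (hV : ∀ y ∈ F₀, qExpand ℚ ℓ y ∈ F₀')
    (hcorr : CorrInputs (alphaOfLe (AlgebraicClosure ℚ) hle)
      (betaOfStable (AlgebraicClosure ℚ) ℓ hV)) {n : ℕ} (hn : n ≠ 0)
    (σ : AlgebraicClosure ℚ ≃ₐ[ℚ] AlgebraicClosure ℚ)
    (x : Pic0 (AlgebraicClosure ℚ) ↥(laurentBaseChange (AlgebraicClosure ℚ) F₀))
    (hx : (n : ℤ) • x = 0) :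
    heckeTOfLevel ℓ hle hV (σ • x) = σ • heckeTOfLevel ℓ hle hV x := by
  obtain ⟨f, hf⟩ := exists_isKummerPair (Pic0.mem_torsion.mpr hx)
  have h1 : IsKummerPair n (σ • x) (arithmeticGalois F₀ σ • f) :=
    TorsionESK.isKummerPair_semilinear_smul hf (arithmeticGalois F₀ σ)
  have h2 := isKummerPair_heckeTOfLevel ℓ hle hV hcorr h1
  have h3 : IsKummerPair n (σ • heckeTOfLevel ℓ hle hV x)
      (arithmeticGalois F₀ σ • normTOfLevel ℓ hle hV f) :=
    TorsionESK.isKummerPair_semilinear_smul (isKummerPair_heckeTOfLevel ℓ hle hV hcorr hf)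
      (arithmeticGalois F₀ σ)
  rw [normTOfLevel_galois] at h2
  have h4 := h2.add h3.neg
  have h5 : IsKummerPair n
      (heckeTOfLevel ℓ hle hV (σ • x) + -(σ • heckeTOfLevel ℓ hle hV x)) (1 * 1 ^ n) := by
    have e : arithmeticGalois F₀ σ • normTOfLevel ℓ hle hV f *
        (arithmeticGalois F₀ σ • normTOfLevel ℓ hle hV f)⁻¹ = 1 * 1 ^ n := by
      rw [mul_inv_cancel₀ h3.ne_zero, one_pow, one_mul]
    rw [← e]
    exact h4
  have h6 := IsKummerPair.eq_zero_of_eq_mul_pow hn h5 (fun v => v.ord_one) one_ne_zero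
  have h7 := eq_neg_of_add_eq_zero_left h6
  rwa [neg_neg] at h7

variable {A}

/-- **The norm formula of the level structure**:
`Nm_α (V_ℓ y)(t^ℓ) = y(t^{ℓ²}) · ∏_{b<ℓ} (δ y)(ζ^b t)`. -/
theorem qExpand_norm_of_level (ℓ : ℕ) [NeZero ℓ] (hℓ : ℓ.Prime) (hle : F₀ ≤ F₀')
    (hV : ∀ y ∈ F₀, qExpand ℚ ℓ y ∈ F₀')
    (hfin : FiniteAlong (AlgebraicClosure ℚ) (alphaOfLe (AlgebraicClosure ℚ) hle))
    (hdeg : finrankAlong (AlgebraicClosure ℚ) (alphaOfLe (AlgebraicClosure ℚ) hle) ≤ ℓ + 1)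
    (δ : ↥(laurentBaseChange (AlgebraicClosure ℚ) F₀) →
      ↥(laurentBaseChange (AlgebraicClosure ℚ) F₀))
    (hconj : ∀ w : (AlgebraicClosure ℚ)ˣ, w ^ ℓ = 1 →
      ∃ τ : ↥(laurentBaseChange (AlgebraicClosure ℚ) F₀') →+*
          LaurentSeries (AlgebraicClosure ℚ),
        (∀ x : ↥(laurentBaseChange (AlgebraicClosure ℚ) F₀),
          τ (alphaOfLe (AlgebraicClosure ℚ) hle x) =
            qExpand (AlgebraicClosure ℚ) ℓ (x : LaurentSeries (AlgebraicClosure ℚ))) ∧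
        (∀ x : ↥(laurentBaseChange (AlgebraicClosure ℚ) F₀),
          τ (betaOfStable (AlgebraicClosure ℚ) ℓ hV x) =
            rot w ((δ x : ↥(laurentBaseChange (AlgebraicClosure ℚ) F₀)) :
              LaurentSeries (AlgebraicClosure ℚ))))
    (x₀ : ↥(laurentBaseChange (AlgebraicClosure ℚ) F₀))
    (hx₀ : ((δ x₀ : ↥(laurentBaseChange (AlgebraicClosure ℚ) F₀)) :
      LaurentSeries (AlgebraicClosure ℚ)) = jqModC (AlgebraicClosure ℚ))
    (ζ : (AlgebraicClosure ℚ)ˣ) (hζ : IsPrimitiveRoot ζ ℓ)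
    (y : ↥(laurentBaseChange (AlgebraicClosure ℚ) F₀)) :
    qExpand (AlgebraicClosure ℚ) ℓ ((normTOfLevel ℓ hle hV y :
        ↥(laurentBaseChange (AlgebraicClosure ℚ) F₀)) : LaurentSeries (AlgebraicClosure ℚ)) =
      qExpand (AlgebraicClosure ℚ) (ℓ * ℓ) (y : LaurentSeries (AlgebraicClosure ℚ)) *
        ∏ b ∈ Finset.range ℓ,
          rot (ζ ^ b) ((δ y : ↥(laurentBaseChange (AlgebraicClosure ℚ) F₀)) :
            LaurentSeries (AlgebraicClosure ℚ)) :=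
  qExpand_norm_of_conj ℓ (alphaOfLe (AlgebraicClosure ℚ) hle)
    (betaOfStable (AlgebraicClosure ℚ) ℓ hV) δ hℓ
    (fun x => coe_alphaOfLe (AlgebraicClosure ℚ) hle x)
    (fun x => coe_betaOfStable (AlgebraicClosure ℚ) ℓ hV x) hfin
    (finrankAlong_alpha_eq ℓ _ _ δ hℓ (fun x => coe_alphaOfLe (AlgebraicClosure ℚ) hle x)
      (fun x => coe_betaOfStable (AlgebraicClosure ℚ) ℓ hV x) hfin hdeg hconj x₀ hx₀)
    hconj x₀ hx₀ ζ hζ y

variable (A)

/-- **The Hecke congruence data of the level structure** (Gauss-ring form): `T = α_* V_ℓ^*`,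
`D₁ = id`, `D₂ = D` with Kummer transfer `δ`. -/
def heckeCongGOfLevel (hS : IntegralScaling F₀ A) (ℓ m : ℕ) [NeZero ℓ] (hℓ : ℓ.Prime)
    (hA : A.LiesOverPrime ℓ) (hle : F₀ ≤ F₀') (hV : ∀ y ∈ F₀, qExpand ℚ ℓ y ∈ F₀')
    (hcorr : CorrInputs (alphaOfLe (AlgebraicClosure ℚ) hle)
      (betaOfStable (AlgebraicClosure ℚ) ℓ hV))
    (hdeg : finrankAlong (AlgebraicClosure ℚ) (alphaOfLe (AlgebraicClosure ℚ) hle) ≤ ℓ + 1)
    (D : Pic0 (AlgebraicClosure ℚ) ↥(laurentBaseChange (AlgebraicClosure ℚ) F₀) →+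
      Pic0 (AlgebraicClosure ℚ) ↥(laurentBaseChange (AlgebraicClosure ℚ) F₀))
    (δ : ↥(laurentBaseChange (AlgebraicClosure ℚ) F₀) →*
      ↥(laurentBaseChange (AlgebraicClosure ℚ) F₀))
    (kummer_D : ∀ {x : Pic0 (AlgebraicClosure ℚ) ↥(laurentBaseChange (AlgebraicClosure ℚ) F₀)}
      {f : ↥(laurentBaseChange (AlgebraicClosure ℚ) F₀)},
      IsKummerPair m x f → IsKummerPair m (D x) (δ f))
    (galois_δ : ∀ (σ : AlgebraicClosure ℚ ≃ₐ[ℚ] AlgebraicClosure ℚ)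
      (f : ↥(laurentBaseChange (AlgebraicClosure ℚ) F₀)),
      δ (arithmeticGalois F₀ σ • f) = arithmeticGalois F₀ σ • δ f)
    (unit_δ : ∀ (f : ↥(laurentBaseChange (AlgebraicClosure ℚ) F₀))
      (u : LaurentSeries (IsLocalRing.ResidueField A)), u ≠ 0 →
      RedTo A (IsLocalRing.residue A) (f : LaurentSeries (AlgebraicClosure ℚ)) u →
      ∃ u' : LaurentSeries (IsLocalRing.ResidueField A), u' ≠ 0 ∧
        RedTo A (IsLocalRing.residue A)
          ((δ f : ↥(laurentBaseChange (AlgebraicClosure ℚ) F₀)) :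
            LaurentSeries (AlgebraicClosure ℚ)) u')
    (hconj : ∀ w : (AlgebraicClosure ℚ)ˣ, w ^ ℓ = 1 →
      ∃ τ : ↥(laurentBaseChange (AlgebraicClosure ℚ) F₀') →+*
          LaurentSeries (AlgebraicClosure ℚ),
        (∀ x : ↥(laurentBaseChange (AlgebraicClosure ℚ) F₀),
          τ (alphaOfLe (AlgebraicClosure ℚ) hle x) =
            qExpand (AlgebraicClosure ℚ) ℓ (x : LaurentSeries (AlgebraicClosure ℚ))) ∧
        (∀ x : ↥(laurentBaseChange (AlgebraicClosure ℚ) F₀),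
          τ (betaOfStable (AlgebraicClosure ℚ) ℓ hV x) =
            rot w ((δ x : ↥(laurentBaseChange (AlgebraicClosure ℚ) F₀)) :
              LaurentSeries (AlgebraicClosure ℚ))))
    (x₀ : ↥(laurentBaseChange (AlgebraicClosure ℚ) F₀))
    (hx₀ : ((δ x₀ : ↥(laurentBaseChange (AlgebraicClosure ℚ) F₀)) :
      LaurentSeries (AlgebraicClosure ℚ)) = jqModC (AlgebraicClosure ℚ)) :
    HeckeCongG F₀ A ℓ m :=
  heckeCongGOfNorm F₀ F₀' A hS ℓ m hℓ hA (alphaOfLe (AlgebraicClosure ℚ) hle)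
    (betaOfStable (AlgebraicClosure ℚ) ℓ hV) (heckeTOfLevel ℓ hle hV) D δ
    (fun h => isKummerPair_heckeTOfLevel ℓ hle hV hcorr h) (fun h => kummer_D h) galois_δ
    unit_δ
    (fun ζ hζ y => qExpand_norm_of_level ℓ hℓ hle hV (corrInputs_finiteAlong hcorr) hdeg
      (fun f => δ f) hconj x₀ hx₀ ζ hζ y)

/-- **The Eichler–Shimura relation of the level structure**: for a Frobenius element `σ` of `A`
over `ℓ`, `σ² D x - T (σ x) + ℓ x = 0` on `J[m]`. -/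
theorem frobenius_relation_of_level (hS : IntegralScaling F₀ A) (ℓ : ℕ) {m : ℕ} [NeZero ℓ]
    (hℓ : ℓ.Prime) (hA : A.LiesOverPrime ℓ) (hm : m ≠ 0) (hK : KummerRootF F₀ A m)
    (hle : F₀ ≤ F₀') (hV : ∀ y ∈ F₀, qExpand ℚ ℓ y ∈ F₀')
    (hcorr : CorrInputs (alphaOfLe (AlgebraicClosure ℚ) hle)
      (betaOfStable (AlgebraicClosure ℚ) ℓ hV))
    (hdeg : finrankAlong (AlgebraicClosure ℚ) (alphaOfLe (AlgebraicClosure ℚ) hle) ≤ ℓ + 1)
    (D : Pic0 (AlgebraicClosure ℚ) ↥(laurentBaseChange (AlgebraicClosure ℚ) F₀) →+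
      Pic0 (AlgebraicClosure ℚ) ↥(laurentBaseChange (AlgebraicClosure ℚ) F₀))
    (δ : ↥(laurentBaseChange (AlgebraicClosure ℚ) F₀) →*
      ↥(laurentBaseChange (AlgebraicClosure ℚ) F₀))
    (kummer_D : ∀ {x : Pic0 (AlgebraicClosure ℚ) ↥(laurentBaseChange (AlgebraicClosure ℚ) F₀)}
      {f : ↥(laurentBaseChange (AlgebraicClosure ℚ) F₀)},
      IsKummerPair m x f → IsKummerPair m (D x) (δ f))
    (galois_δ : ∀ (σ : AlgebraicClosure ℚ ≃ₐ[ℚ] AlgebraicClosure ℚ)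
      (f : ↥(laurentBaseChange (AlgebraicClosure ℚ) F₀)),
      δ (arithmeticGalois F₀ σ • f) = arithmeticGalois F₀ σ • δ f)
    (unit_δ : ∀ (f : ↥(laurentBaseChange (AlgebraicClosure ℚ) F₀))
      (u : LaurentSeries (IsLocalRing.ResidueField A)), u ≠ 0 →
      RedTo A (IsLocalRing.residue A) (f : LaurentSeries (AlgebraicClosure ℚ)) u →
      ∃ u' : LaurentSeries (IsLocalRing.ResidueField A), u' ≠ 0 ∧
        RedTo A (IsLocalRing.residue A)
          ((δ f : ↥(laurentBaseChange (AlgebraicClosure ℚ) F₀)) :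
            LaurentSeries (AlgebraicClosure ℚ)) u')
    (hconj : ∀ w : (AlgebraicClosure ℚ)ˣ, w ^ ℓ = 1 →
      ∃ τ : ↥(laurentBaseChange (AlgebraicClosure ℚ) F₀') →+*
          LaurentSeries (AlgebraicClosure ℚ),
        (∀ x : ↥(laurentBaseChange (AlgebraicClosure ℚ) F₀),
          τ (alphaOfLe (AlgebraicClosure ℚ) hle x) =
            qExpand (AlgebraicClosure ℚ) ℓ (x : LaurentSeries (AlgebraicClosure ℚ))) ∧
        (∀ x : ↥(laurentBaseChange (AlgebraicClosure ℚ) F₀),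
          τ (betaOfStable (AlgebraicClosure ℚ) ℓ hV x) =
            rot w ((δ x : ↥(laurentBaseChange (AlgebraicClosure ℚ) F₀)) :
              LaurentSeries (AlgebraicClosure ℚ))))
    (x₀ : ↥(laurentBaseChange (AlgebraicClosure ℚ) F₀))
    (hx₀ : ((δ x₀ : ↥(laurentBaseChange (AlgebraicClosure ℚ) F₀)) :
      LaurentSeries (AlgebraicClosure ℚ)) = jqModC (AlgebraicClosure ℚ))
    (σ : AlgebraicClosure ℚ ≃ₐ[ℚ] AlgebraicClosure ℚ) (hσ : A.IsFrobeniusAt σ ℓ)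
    (x : Pic0 (AlgebraicClosure ℚ) ↥(laurentBaseChange (AlgebraicClosure ℚ) F₀))
    (hx : (m : ℤ) • x = 0) :
    σ • σ • D x - heckeTOfLevel ℓ hle hV (σ • x) + ℓ • x = 0 :=
  frobenius_relationG hS ℓ hℓ hA hm hK
    (heckeCongGOfLevel A hS ℓ m hℓ hA hle hV hcorr hdeg D δ kummer_D galois_δ unit_δ hconj x₀
      hx₀) σ hσ x hx

end Level

end Fermat.Agent.G1.Cong
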