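import Fermat.Agent.G1.Cong.HeckeAbs
import Fermat.Agent.G1.GenHecke
import Fermat.Agent.G1.GaloisOps1
import Fermat.Agent.G1.K18.Descent
import Fermat.Agent.ESJ.Cong.ConjNormAnalytic

/-!
# G1 / CONG: the level structure `F1a M 1 ≤ F1a M p` of `X₁(M)`

The model field of `X₁(M)` is `F₀ = F1a M 1` (`= F1 M`), the Hecke-level field is
`F₀' = F1a M p = F1 M ⊔ F0(M p)`.

* `F1a_one_le M p : F1a M 1 ≤ F1a M p`;
* `vStable1 M p hM : ∀ y ∈ F1a M 1, qExpand ℚ p y ∈ F1a M p` (helper82's `qExpand_mem_F1a`);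
* `alphaOfLe_eq_inclBar`, `betaOfStable_eq_vBar` : the degeneracy maps of `LevelMaps.lean` are
  those of `G1/GaloisOps.lean`;
* `finiteAlong_incl1`, `finrankAlong_incl1_le` : `ℚ̄·F1a M p` is finite of degree `≤ p + 1` over
  `ℚ̄·F1a M 1` (compositum bound from `[F0(M p) : F0(M)] = p + 1`);
* `corrInputs_iff_heckeInputsGen`, `heckeTOfLevel_eq_heckeGen` : the Hecke operator of
  `HeckeAbs.lean` is `GaloisOps.heckeGen`.
-/

set_option autoImplicit false
set_option linter.unusedSectionVars false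

noncomputable section

namespace Fermat.Agent.G1.Cong

open ModularCurve AlgebraicCurve HahnSeries IntermediateField
open Fermat.Agent.ESJ.Jac Fermat.Agent.ESJ.Jac.HeckeKummer Fermat.Agent.ESJ.Cong

/-! ### Generic: the maps and operators of `LevelMaps` / `HeckeAbs` are those of `GaloisOps` -/

section Bridge

variable (L : Type*) [Field L] [Algebra ℚ L] {F₀ F₀' : IntermediateField ℚ (LaurentSeries ℚ)}

theorem alphaOfLe_eq_inclBar (h : F₀ ≤ F₀') : alphaOfLe L h = GaloisOps.inclBar L h := rfl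

theorem betaOfStable_eq_vBar (ℓ : ℕ) [NeZero ℓ] (hV : ∀ y ∈ F₀, qExpand ℚ ℓ y ∈ F₀') :
    betaOfStable L ℓ hV = GaloisOps.vBar L ℓ hV := rfl

/-- The inputs of the correspondence, in the form of `GaloisOps.HeckeInputsGen`. -/
theorem heckeInputsGen_of_corrInputs (ℓ : ℕ) [NeZero ℓ] (hle : F₀ ≤ F₀')
    (hV : ∀ y ∈ F₀, qExpand ℚ ℓ y ∈ F₀')
    (h : CorrInputs (alphaOfLe L hle) (betaOfStable L ℓ hV)) :
    GaloisOps.HeckeInputsGen L F₀ F₀' ℓ := by
  obtain ⟨hα, hβ, hP, hfin, hFI, hN⟩ := h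
  exact ⟨hle, hV, hα, hβ, hP, hfin, hFI, hN⟩

/-- The Hecke operator of `HeckeAbs.lean` is `GaloisOps.heckeGen`. -/
theorem corrTotal_eq_heckeGen (ℓ : ℕ) [NeZero ℓ] (hle : F₀ ≤ F₀')
    (hV : ∀ y ∈ F₀, qExpand ℚ ℓ y ∈ F₀')
    (h : CorrInputs (alphaOfLe L hle) (betaOfStable L ℓ hV)) :
    corrTotal (alphaOfLe L hle) (betaOfStable L ℓ hV) = GaloisOps.heckeGen L F₀ F₀' ℓ := by
  obtain ⟨hα, hβ, hP, hfin, hFI, hN⟩ := h
  rw [corrTotal_eq hα hβ hFI hfin hN]
  exact (GaloisOps.heckeGen_eq hle hV hα hβ hFI hfin hN).symm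

end Bridge

/-! ### The level structure of `X₁(M)` -/

section X1

variable (M p : ℕ) [NeZero M] [NeZero p]

theorem F1a_one_le : F1a M 1 ≤ F1a M p := by
  rw [F1a_one]
  exact F1_le_F1a M p

theorem full_le_F1a_one : modularFunctionFieldFull M ≤ F1a M 1 := by
  rw [F1a_one]
  exact full_le_F1 M

/-- **`V_p` maps `F1a M 1` into `F1a M p`.** -/
theorem vStable1 (hM : 3 ≤ M) : ∀ y ∈ F1a M 1, qExpand ℚ p y ∈ F1a M p := by
  intro y hy
  rw [F1a_one] at hy
  exact qExpand_mem_F1a hM hy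

theorem F1a_eq_sup : F1a M p = F1a M 1 ⊔ modularFunctionFieldFull (M * p) := by
  rw [F1a_one]
  rfl

/-- **`ℚ̄·F1a M p` is finite of degree `≤ p + 1` over `ℚ̄·F1a M 1`.** -/
theorem finite_and_finrank_incl1_le (hp : p.Prime) (hpM : ¬ p ∣ M) :
    FiniteAlong (AlgebraicClosure ℚ) (alphaOfLe (AlgebraicClosure ℚ) (F1a_one_le M p)) ∧
      finrankAlong (AlgebraicClosure ℚ) (alphaOfLe (AlgebraicClosure ℚ) (F1a_one_le M p)) ≤
        p + 1 := by
  have key := ConjAnalytic.finite_and_finrank_alpha M p hp hpM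
  have hsup : laurentBaseChange (AlgebraicClosure ℚ) (F1a M p) =
      laurentBaseChange (AlgebraicClosure ℚ) (F1a M 1) ⊔
        laurentBaseChange (AlgebraicClosure ℚ) (modularFunctionFieldFull (M * p)) := by
    rw [← K18.baseChange_sup, ← F1a_eq_sup]
  have h := K18.finite_and_finrank_le_of_eq_sup
    (laurentBaseChange (AlgebraicClosure ℚ) (modularFunctionFieldFull M))
    (laurentBaseChange (AlgebraicClosure ℚ) (modularFunctionFieldFull (M * p)))
    (laurentBaseChange (AlgebraicClosure ℚ) (F1a M 1))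
    (laurentBaseChange (AlgebraicClosure ℚ) (F1a M p))
    (K18.baseChange_mono (AlgebraicClosure ℚ) (full_degeneracy_le (dvd_mul_right M p)))
    (K18.baseChange_mono (AlgebraicClosure ℚ) (full_le_F1a_one M))
    (K18.baseChange_mono (AlgebraicClosure ℚ) (F1a_one_le M p)) hsup key.1
  exact ⟨h.1, h.2.trans (le_of_eq key.2)⟩

theorem finiteAlong_incl1 (hp : p.Prime) (hpM : ¬ p ∣ M) :
    FiniteAlong (AlgebraicClosure ℚ) (alphaOfLe (AlgebraicClosure ℚ) (F1a_one_le M p)) :=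
  (finite_and_finrank_incl1_le M p hp hpM).1

theorem finrankAlong_incl1_le (hp : p.Prime) (hpM : ¬ p ∣ M) :
    finrankAlong (AlgebraicClosure ℚ) (alphaOfLe (AlgebraicClosure ℚ) (F1a_one_le M p)) ≤
      p + 1 :=
  (finite_and_finrank_incl1_le M p hp hpM).2

end X1

end Fermat.Agent.G1.Cong
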