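import Fermat.Agent.G1.Cong.TorsionESGauss
import Fermat.Agent.ESJ.HeckeInputs
import Fermat.Agent.Lib.FF.ExtPrincipal
import Fermat.Agent.S24.DegNormCore

/-!
# G1 / CONG: degeneracy maps and the Hecke correspondence for abstract levels

Generic in the fields of rational Laurent series `F₀ ≤ F₀'` (for `X₁`: `F₀ = F1 M`,
`F₀' = F1a M ℓ`).

* `alphaOfLe L h : L·F₀ →ₐ[L] L·F₀'` — the inclusion (`q`-series unchanged);
* `betaOfStable L ℓ hV : L·F₀ →ₐ[L] L·F₀'` — `V_ℓ : f(q) ↦ f(q^ℓ)`, when
  `hV : ∀ y ∈ F₀, qExpand ℚ ℓ y ∈ F₀'`;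
* both commute with the coefficientwise Galois action (`alphaOfLe_galois`,
  `betaOfStable_galois`), hence so does `Nm_α ∘ β` (`normAlong_galois`);
* `CorrInputs α β`, `corrTotal α β : Pic0 K F →+ Pic0 K F` — the correspondence `α_* β^*` as a
  total definition (zero unless the inputs of `Pic0.correspondence` hold), for arbitrary function
  fields; `isKummerPair_corrTotal` : its Kummer transfer is `Nm_α ∘ β`;
* `corrInputs_of_finite` : the inputs hold as soon as `F`, `F'` are finite over rational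
  subfields `K(x)`, `K(x')` (`K` algebraically closed of characteristic zero);
* `finrankAlong_eq_of_embeddings` : the degree of `α` from an upper bound and a family of
  distinct embeddings.
-/

set_option autoImplicit false
set_option linter.unusedSectionVars false

noncomputable section

namespace Fermat.Agent.G1.Cong

open ModularCurve AlgebraicCurve HahnSeries IntermediateField
open Fermat.Agent.ESJ.Jac Fermat.Agent.ESJ.Jac.HeckeKummer Fermat.Agent.ESJ.Cong

/-! ### The degeneracy maps -/

section Maps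

variable (L : Type*) [Field L] [Algebra ℚ L] {F₀ F₀' : IntermediateField ℚ (LaurentSeries ℚ)}

theorem laurentBaseChange_le (h : F₀ ≤ F₀') :
    laurentBaseChange L F₀ ≤ laurentBaseChange L F₀' := by
  rw [laurentBaseChange, IntermediateField.adjoin_le_iff]
  rintro _ ⟨y, hy, rfl⟩
  exact coeffEmb_mem_laurentBaseChange L (h hy)

/-- The degeneracy map `α`: the inclusion `L·F₀ ⊆ L·F₀'`. -/
def alphaOfLe (h : F₀ ≤ F₀') :
    ↥(laurentBaseChange L F₀) →ₐ[L] ↥(laurentBaseChange L F₀') :=
  IntermediateField.inclusion (laurentBaseChange_le L h)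

@[simp]
theorem coe_alphaOfLe (h : F₀ ≤ F₀') (x : ↥(laurentBaseChange L F₀)) :
    ((alphaOfLe L h x : ↥(laurentBaseChange L F₀')) : LaurentSeries L) = (x : LaurentSeries L) :=
  IntermediateField.coe_inclusion _ x

theorem coeffEmb_qExpand_eq (n : ℕ) [NeZero n] (x : LaurentSeries ℚ) :
    coeffEmb L (qExpand ℚ n x) = qExpand L n (coeffEmb L x) :=
  coeffMap_qExpand _ n x

/-- `q ↦ q^ℓ` maps `L·F₀` into `L·F₀'` if it maps `F₀` into `F₀'`. -/
theorem qExpand_mem_laurentBaseChange_of_stable (ℓ : ℕ) [NeZero ℓ]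
    (hV : ∀ y ∈ F₀, qExpand ℚ ℓ y ∈ F₀') {x : LaurentSeries L}
    (hx : x ∈ laurentBaseChange L F₀) : qExpand L ℓ x ∈ laurentBaseChange L F₀' := by
  rw [mem_laurentBaseChange_iff] at hx
  induction hx using Subfield.closure_induction with
  | mem y hy =>
      rcases hy with ⟨a, rfl⟩ | ⟨z, hz, rfl⟩
      · rw [algebraMap_laurentSeries_eq_single, qExpand_single, mul_zero,
          ← algebraMap_laurentSeries_eq_single]
        exact (laurentBaseChange L F₀').algebraMap_mem _
      · rw [← coeffEmb_qExpand_eq]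
        exact coeffEmb_mem_laurentBaseChange L (hV z hz)
  | one => simp
  | add x y _ _ hx hy => simpa using add_mem hx hy
  | neg x _ hx => simpa using neg_mem hx
  | inv x _ hx => simpa using inv_mem hx
  | mul x y _ _ hx hy => simpa using mul_mem hx hy

/-- The degeneracy map `β = V_ℓ : f(q) ↦ f(q^ℓ)` as a ring homomorphism. -/
def betaOfStableRingHom (ℓ : ℕ) [NeZero ℓ] (hV : ∀ y ∈ F₀, qExpand ℚ ℓ y ∈ F₀') :
    ↥(laurentBaseChange L F₀) →+* ↥(laurentBaseChange L F₀') where
  toFun x := ⟨qExpand L ℓ (x : LaurentSeries L),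
    qExpand_mem_laurentBaseChange_of_stable L ℓ hV x.2⟩
  map_one' := Subtype.ext (map_one (qExpand L ℓ))
  map_mul' _ _ := Subtype.ext (map_mul (qExpand L ℓ) _ _)
  map_zero' := Subtype.ext (map_zero (qExpand L ℓ))
  map_add' _ _ := Subtype.ext (map_add (qExpand L ℓ) _ _)

/-- The degeneracy map `β = V_ℓ : f(q) ↦ f(q^ℓ)`. -/
def betaOfStable (ℓ : ℕ) [NeZero ℓ] (hV : ∀ y ∈ F₀, qExpand ℚ ℓ y ∈ F₀') :
    ↥(laurentBaseChange L F₀) →ₐ[L] ↥(laurentBaseChange L F₀') :=
  { betaOfStableRingHom L ℓ hV with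
    commutes' := fun a => Subtype.ext <| by
      show qExpand L ℓ (algebraMap L (LaurentSeries L) a) = algebraMap L (LaurentSeries L) a
      rw [algebraMap_laurentSeries_eq_single, qExpand_single, mul_zero] }

@[simp]
theorem coe_betaOfStable (ℓ : ℕ) [NeZero ℓ] (hV : ∀ y ∈ F₀, qExpand ℚ ℓ y ∈ F₀')
    (x : ↥(laurentBaseChange L F₀)) :
    ((betaOfStable L ℓ hV x : ↥(laurentBaseChange L F₀')) : LaurentSeries L) =
      qExpand L ℓ (x : LaurentSeries L) :=
  rfl

/-- `α` commutes with the coefficientwise Galois action. -/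
theorem alphaOfLe_galois (h : F₀ ≤ F₀') (σ : L ≃ₐ[ℚ] L) (x : ↥(laurentBaseChange L F₀)) :
    alphaOfLe L h (arithmeticGalois F₀ σ • x) = arithmeticGalois F₀' σ • alphaOfLe L h x := by
  apply Subtype.ext
  rw [coe_alphaOfLe, coe_arithmeticGalois_smul, coe_arithmeticGalois_smul, coe_alphaOfLe]

/-- `β` commutes with the coefficientwise Galois action. -/
theorem betaOfStable_galois (ℓ : ℕ) [NeZero ℓ] (hV : ∀ y ∈ F₀, qExpand ℚ ℓ y ∈ F₀')
    (σ : L ≃ₐ[ℚ] L) (x : ↥(laurentBaseChange L F₀)) :
    betaOfStable L ℓ hV (arithmeticGalois F₀ σ • x) =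
      arithmeticGalois F₀' σ • betaOfStable L ℓ hV x := by
  apply Subtype.ext
  rw [coe_betaOfStable, coe_arithmeticGalois_smul, coe_arithmeticGalois_smul, coe_betaOfStable,
    coeffMap_qExpand]

end Maps

/-! ### The correspondence as a total definition -/

section Corr

variable {K F F' : Type*} [Field K] [Field F] [Field F'] [Algebra K F] [Algebra K F']

/-- The inputs of `Pic0.correspondence β α` (`α_* β^*`). -/
def CorrInputs (α β : F →ₐ[K] F') : Prop :=
  ∃ (_ : α.toRingHom.IsIntegral) (hβ : β.toRingHom.IsIntegral)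
    (_ : HasPrincipalDivisors K F') (hfin : FiniteAlong K α),
    FundamentalIdentityAlong K β hβ ∧ NormFormulaAlong K α hfin

open Classical in
/-- The correspondence `α_* β^*` on `Pic⁰`, as a total definition. -/
def corrTotal (α β : F →ₐ[K] F') : Pic0 K F →+ Pic0 K F :=
  if h : CorrInputs α β then
    haveI := h.snd.snd.fst
    Pic0.correspondence β α h.snd.fst h.fst h.snd.snd.snd.snd.1 h.snd.snd.snd.fst
      h.snd.snd.snd.snd.2
  else 0

theorem corrInputs_intro {α β : F →ₐ[K] F'} (hα : α.toRingHom.IsIntegral)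
    (hβ : β.toRingHom.IsIntegral) [hP : HasPrincipalDivisors K F']
    (hFI : FundamentalIdentityAlong K β hβ) (hfin : FiniteAlong K α)
    (hN : NormFormulaAlong K α hfin) : CorrInputs α β :=
  ⟨hα, hβ, hP, hfin, hFI, hN⟩

theorem corrTotal_eq {α β : F →ₐ[K] F'} (hα : α.toRingHom.IsIntegral)
    (hβ : β.toRingHom.IsIntegral) [HasPrincipalDivisors K F']
    (hFI : FundamentalIdentityAlong K β hβ) (hfin : FiniteAlong K α)
    (hN : NormFormulaAlong K α hfin) :
    corrTotal α β = Pic0.correspondence β α hβ hα hFI hfin hN := by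
  have h : CorrInputs α β := corrInputs_intro hα hβ hFI hfin hN
  rw [corrTotal, dif_pos h]

/-- **The Kummer transfer of the correspondence `α_* β^*` is `Nm_α ∘ β`.** -/
theorem isKummerPair_corrTotal {α β : F →ₐ[K] F'} (h : CorrInputs α β) {n : ℕ}
    {x : Pic0 K F} {f : F} (hf : IsKummerPair n x f) :
    IsKummerPair n (corrTotal α β x) (normAlong α (β f)) := by
  obtain ⟨hα, hβ, hP, hfin, hFI, hN⟩ := h
  rw [corrTotal_eq hα hβ hFI hfin hN]
  exact isKummerPair_correspondence β α hβ hα hFI hfin hN hf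

theorem corrInputs_finiteAlong {α β : F →ₐ[K] F'} (h : CorrInputs α β) : FiniteAlong K α :=
  h.snd.snd.snd.fst

/-- The inputs of the correspondence for function fields of one variable over an algebraically
closed field of characteristic zero, each finite over a rational subfield. -/
theorem corrInputs_of_finite [IsAlgClosed K] [CharZero K] (α β : F →ₐ[K] F') {x : F}
    (hx : Transcendental K x) [FiniteDimensional K⟮x⟯ F] (x' : F')
    [FiniteDimensional K⟮x'⟯ F'] : CorrInputs α β := by
  haveI : Algebra.IsAlgebraic K⟮x⟯ F := Algebra.IsAlgebraic.of_finite _ _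
  haveI : Algebra.IsAlgebraic K⟮x'⟯ F' := Algebra.IsAlgebraic.of_finite _ _
  haveI : HasPrincipalDivisors K F' := Fermat.Agent.Lib.FF.Ext.hasPrincipalDivisors x'
  have hfinα : FiniteAlong K α := Fermat.Agent.ESJ.HeckeInputs.finiteAlong α hx x'
  have hfinβ : FiniteAlong K β := Fermat.Agent.ESJ.HeckeInputs.finiteAlong β hx x'
  have hα := Fermat.Agent.ESJ.HeckeInputs.isIntegral_of_finiteAlong α hfinα
  have hβ := Fermat.Agent.ESJ.HeckeInputs.isIntegral_of_finiteAlong β hfinβ
  exact corrInputs_intro hα hβ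
    (Fermat.Agent.ESJ.HeckeInputs.fundamentalIdentityAlong β hβ hfinβ x x') hfinα
    (Fermat.Agent.ESJ.HeckeInputs.normFormulaAlong α hfinα x x')

/-- **The degree of `α` from an upper bound and a family of distinct embeddings** `σ q : F' → Ω`
with `σ q ∘ α = ι`. -/
theorem finrankAlong_eq_of_embeddings (α : F →ₐ[K] F') {Ω : Type*} [Field Ω] (ι : F →+* Ω)
    {X : Type*} [Fintype X] (σ : X → (F' →+* Ω)) (hσ : ∀ q x, σ q (α x) = ι x)
    (hinj : Function.Injective σ) (hfin : FiniteAlong K α)
    (hle : finrankAlong K α ≤ Fintype.card X) : finrankAlong K α = Fintype.card X := by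
  letI := algebraAlong α
  letI : Algebra F Ω := ι.toAlgebra
  haveI : FiniteDimensional F F' := hfin
  let σ' : X → (F' →ₐ[F] Ω) := fun q => { σ q with commutes' := fun x => hσ q x }
  have hinj' : Function.Injective σ' := by
    intro q q' h
    apply hinj
    ext y
    exact congrArg (fun φ : F' →ₐ[F] Ω => φ y) h
  exact le_antisymm hle (Fermat.Agent.S24.DegNorm.card_le_finrank σ' hinj')

end Corr

/-! ### `Nm_α ∘ β` commutes with the coefficientwise Galois action -/

section NormGalois

variable {F₀ F₀' : IntermediateField ℚ (LaurentSeries ℚ)}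

/-- The norm along a Galois-equivariant embedding is Galois-equivariant. -/
theorem normAlong_galois
    (α : ↥(laurentBaseChange (AlgebraicClosure ℚ) F₀) →ₐ[AlgebraicClosure ℚ]
      ↥(laurentBaseChange (AlgebraicClosure ℚ) F₀'))
    (hα : ∀ (σ : AlgebraicClosure ℚ ≃ₐ[ℚ] AlgebraicClosure ℚ)
      (x : ↥(laurentBaseChange (AlgebraicClosure ℚ) F₀)),
      α (arithmeticGalois F₀ σ • x) = arithmeticGalois F₀' σ • α x)
    (σ : AlgebraicClosure ℚ ≃ₐ[ℚ] AlgebraicClosure ℚ)
    (g : ↥(laurentBaseChange (AlgebraicClosure ℚ) F₀')) :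
    normAlong α (arithmeticGalois F₀' σ • g) = arithmeticGalois F₀ σ • normAlong α g := by
  letI := algebraAlong α
  -- the ring automorphisms of `F` and `F'` given by `σ`
  let e : ↥(laurentBaseChange (AlgebraicClosure ℚ) F₀) ≃+*
      ↥(laurentBaseChange (AlgebraicClosure ℚ) F₀) :=
    SemilinearAut.toRingAut (arithmeticGalois F₀ σ)
  let e' : ↥(laurentBaseChange (AlgebraicClosure ℚ) F₀') ≃+*
      ↥(laurentBaseChange (AlgebraicClosure ℚ) F₀') :=
    SemilinearAut.toRingAut (arithmeticGalois F₀' σ)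
  have he : ∀ x, e x = arithmeticGalois F₀ σ • x := fun x => rfl
  have he' : ∀ y, e' y = arithmeticGalois F₀' σ • y := fun y => rfl
  have hcomm : ∀ x, e' (algebraMap _ _ x) = algebraMap _ _ (e x) := by
    intro x
    show e' (α x) = α (e x)
    rw [he, he', hα]
  have key := Algebra.norm_eq_of_equiv_equiv e e'
    (RingHom.ext fun x => (hcomm x).symm) g
  rw [normAlong_apply, normAlong_apply, ← he', ← he, key, RingEquiv.apply_symm_apply]

end NormGalois

end Fermat.Agent.G1.Cong
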