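import Fermat.Agent.G1.Cong.TorsionESAbs

/-!
# G1 / CONG: the norm of `y(q^ℓ)` from the conjugate embeddings, and the Hecke congruence
(abstract function fields, with a diamond operator)

Let `F, F'` be subfields of `ℚ̄((q))` containing `ℚ̄`, `α, β : F → F'` with `α x = x` and
`β x = x(q^ℓ)` as `q`-series, `[F' : α F] = ℓ + 1`, and `δ : F → F` (a diamond operator; `id` for
`X₀(N)`).  Assume that for every `ℓ`-th root of unity `w` there is a field embedding
`τ_w : F' → ℚ̄((t))` (`t = q^{1/ℓ}`) with `τ_w (α x) = x(t^ℓ)` and `τ_w (β x) = (δ x)(w t)`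
(in the modular case these are the conjugates `f ↦ f ∘ γ_b`), and that `δ x₀ = j` for some
`x₀`.  Then

* `qExpand_norm_of_conj` : `Nm_α (β y)(t^ℓ) = y(t^{ℓ²}) · ∏_{b < ℓ} (δ y)(ζ^b t)`;
* `congruence_of_norm` : for `A` over `ℓ` and `A`-integral `y`, `δ y = y₂`: the norm is
  `A`-integral and `red (Nm_α (β y))(t^ℓ) = red y (t^{ℓ²}) · (red y₂)(t)^ℓ`;
* `heckeCongOfNorm` : the structure `HeckeCong F₀ A ℓ m` (with `D₁ = id`, `D₂ = D`) from the norm
  formula and the Kummer transfers of `T` and `D`.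
-/

set_option autoImplicit false
set_option linter.unusedSectionVars false

noncomputable section

namespace Fermat.Agent.G1.Cong

open ModularCurve AlgebraicCurve HahnSeries
open Fermat.Agent.S28 Fermat.Agent.S28.Chain
open Fermat.Agent.ESJ.Jac Fermat.Agent.ESJ.Jac.HeckeKummer Fermat.Agent.ESJ.Cong

section Norm

variable {F F' : IntermediateField (AlgebraicClosure ℚ) (LaurentSeries (AlgebraicClosure ℚ))}
  (ℓ : ℕ) [NeZero ℓ] (α β : F →ₐ[AlgebraicClosure ℚ] F') (δ : F → F)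

/-- **The norm formula from the conjugate embeddings**:
`Nm_α (β y)(t^ℓ) = y(t^(ℓ²)) · ∏_{b < ℓ} (δ y)(ζ^b t)`. -/
theorem qExpand_norm_of_conj (hℓ : ℓ.Prime)
    (hα : ∀ x : F, ((α x : F') : LaurentSeries (AlgebraicClosure ℚ)) = x)
    (hβ : ∀ x : F, ((β x : F') : LaurentSeries (AlgebraicClosure ℚ)) =
      qExpand (AlgebraicClosure ℚ) ℓ (x : LaurentSeries (AlgebraicClosure ℚ)))
    (hfin : FiniteAlong (AlgebraicClosure ℚ) α)
    (hdeg : finrankAlong (AlgebraicClosure ℚ) α = ℓ + 1)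
    (hconj : ∀ w : (AlgebraicClosure ℚ)ˣ, w ^ ℓ = 1 →
      ∃ τ : F' →+* LaurentSeries (AlgebraicClosure ℚ),
        (∀ x : F, τ (α x) =
          qExpand (AlgebraicClosure ℚ) ℓ (x : LaurentSeries (AlgebraicClosure ℚ))) ∧
        (∀ x : F, τ (β x) = rot w ((δ x : F) : LaurentSeries (AlgebraicClosure ℚ))))
    (x₀ : F) (hx₀ : ((δ x₀ : F) : LaurentSeries (AlgebraicClosure ℚ)) =
      jqModC (AlgebraicClosure ℚ))
    (ζ : (AlgebraicClosure ℚ)ˣ) (hζ : IsPrimitiveRoot ζ ℓ) (y : F) :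
    qExpand (AlgebraicClosure ℚ) ℓ ((normAlong α (β y) : F) :
        LaurentSeries (AlgebraicClosure ℚ)) =
      qExpand (AlgebraicClosure ℚ) (ℓ * ℓ) (y : LaurentSeries (AlgebraicClosure ℚ)) *
        ∏ b ∈ Finset.range ℓ, rot (ζ ^ b) ((δ y : F) : LaurentSeries (AlgebraicClosure ℚ)) := by
  have hex : ∀ b : Fin ℓ, ∃ τ : F' →+* LaurentSeries (AlgebraicClosure ℚ),
      (∀ x : F, τ (α x) =
        qExpand (AlgebraicClosure ℚ) ℓ (x : LaurentSeries (AlgebraicClosure ℚ))) ∧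
      (∀ x : F, τ (β x) = rot (ζ ^ b.1) ((δ x : F) : LaurentSeries (AlgebraicClosure ℚ))) :=
    fun b => hconj (ζ ^ b.1)
      (by rw [← pow_mul, mul_comm, pow_mul, hζ.pow_eq_one, one_pow])
  choose τ hτα hτβ using hex
  let ι : F →+* LaurentSeries (AlgebraicClosure ℚ) :=
    (qExpand (AlgebraicClosure ℚ) ℓ).comp F.val.toRingHom
  let τinf : F' →+* LaurentSeries (AlgebraicClosure ℚ) :=
    (qExpand (AlgebraicClosure ℚ) ℓ).comp F'.val.toRingHom
  let σ : Option (Fin ℓ) → (F' →+* LaurentSeries (AlgebraicClosure ℚ)) :=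
    fun o => o.elim τinf τ
  have hσ : ∀ o x, σ o (α x) = ι x := by
    intro o x
    cases o with
    | none =>
      show qExpand (AlgebraicClosure ℚ) ℓ ((α x : F') : LaurentSeries (AlgebraicClosure ℚ)) =
        qExpand (AlgebraicClosure ℚ) ℓ (x : LaurentSeries (AlgebraicClosure ℚ))
      rw [hα]
    | some b => exact hτα b x
  have hℓ2 : ¬ ((ℓ : ℤ) ∣ -1) := by
    intro h
    have h1 : (ℓ : ℤ) ∣ 1 := (dvd_neg.mp h)
    have h2 : ℓ ∣ 1 := Int.natCast_dvd_natCast.mp (by exact_mod_cast h1)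
    exact hℓ.one_lt.ne' (Nat.dvd_one.mp h2)
  have hnone : (σ none (β x₀)).coeff (-1) = 0 := by
    show (qExpand (AlgebraicClosure ℚ) ℓ ((β x₀ : F') :
        LaurentSeries (AlgebraicClosure ℚ))).coeff (-1) = 0
    exact qExpand_coeff_of_not_dvd (R := AlgebraicClosure ℚ) (N := ℓ) _ hℓ2
  have hsome : ∀ b : Fin ℓ, (σ (some b) (β x₀)).coeff (-1) =
      (((ζ ^ b.1)⁻¹ : (AlgebraicClosure ℚ)ˣ) : AlgebraicClosure ℚ) := by
    intro b
    show (τ b (β x₀)).coeff (-1) = _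
    rw [hτβ b, hx₀, rot_jqModC_coeff_neg_one]
  have hinj : Function.Injective σ := by
    intro o o' h
    have hc := congrArg (fun φ : F' →+* LaurentSeries (AlgebraicClosure ℚ) =>
      (φ (β x₀)).coeff (-1)) h
    cases o with
    | none =>
      cases o' with
      | none => rfl
      | some b' =>
        rw [hnone, hsome] at hc
        exact absurd hc.symm (Units.ne_zero _)
    | some b =>
      cases o' with
      | none =>
        rw [hnone, hsome] at hc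
        exact absurd hc (Units.ne_zero _)
      | some b' =>
        rw [hsome, hsome] at hc
        have h1 : (ζ ^ b.1)⁻¹ = (ζ ^ b'.1)⁻¹ := Units.ext hc
        have h2 : ζ ^ b.1 = ζ ^ b'.1 := inv_injective h1
        have h3 : b.1 = b'.1 := hζ.pow_inj b.2 b'.2 h2
        rw [Fin.ext h3]
  have hcard : Fintype.card (Option (Fin ℓ)) = ℓ + 1 := by
    rw [Fintype.card_option, Fintype.card_fin]
  have key := ConjAnalytic.norm_eq_prod_along α ι σ hσ hinj hfin (hdeg.trans hcard.symm) (β y)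
  have hι : ∀ x : F, ι x =
      qExpand (AlgebraicClosure ℚ) ℓ (x : LaurentSeries (AlgebraicClosure ℚ)) := fun x => rfl
  rw [hι] at key
  rw [normAlong_apply, key, Fintype.prod_option]
  have h1 : σ none (β y) =
      qExpand (AlgebraicClosure ℚ) (ℓ * ℓ) (y : LaurentSeries (AlgebraicClosure ℚ)) := by
    show qExpand (AlgebraicClosure ℚ) ℓ ((β y : F') : LaurentSeries (AlgebraicClosure ℚ)) = _
    rw [hβ, qExpand_qExpand]
  have h2 : ∀ b : Fin ℓ, σ (some b) (β y) =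
      rot (ζ ^ b.1) ((δ y : F) : LaurentSeries (AlgebraicClosure ℚ)) := fun b => hτβ b y
  rw [h1]
  congr 1
  rw [Finset.prod_congr rfl (fun b _ => h2 b)]
  exact Fin.prod_univ_eq_prod_range
    (fun b => rot (ζ ^ b) ((δ y : F) : LaurentSeries (AlgebraicClosure ℚ))) ℓ

/-- **The congruence from the norm formula**: for a valuation ring `A` of `ℚ̄` over `ℓ` and
`A`-integral `y`, `y₂` with `δ y = y₂`, the norm `Nm_α (β y)` is `A`-integral and its reduction
`ḡ` satisfies `ḡ(t^ℓ) = ȳ(t^(ℓ²)) · ȳ₂(t)^ℓ`. -/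
theorem congruence_of_norm (hℓ : ℓ.Prime) (A : ValuationSubring (AlgebraicClosure ℚ))
    (hA : A.LiesOverPrime ℓ)
    (hN : ∀ ζ : (AlgebraicClosure ℚ)ˣ, IsPrimitiveRoot ζ ℓ → ∀ y : F,
      qExpand (AlgebraicClosure ℚ) ℓ ((normAlong α (β y) : F) :
          LaurentSeries (AlgebraicClosure ℚ)) =
        qExpand (AlgebraicClosure ℚ) (ℓ * ℓ) (y : LaurentSeries (AlgebraicClosure ℚ)) *
          ∏ b ∈ Finset.range ℓ,
            rot (ζ ^ b) ((δ y : F) : LaurentSeries (AlgebraicClosure ℚ)))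
    (y y₂ : LaurentSeries A) (hy : coeffMap A.subtype y ∈ F) (hy₂ : coeffMap A.subtype y₂ ∈ F)
    (hδ : δ ⟨_, hy⟩ = ⟨_, hy₂⟩) :
    ∃ (g : LaurentSeries A) (hg : coeffMap A.subtype g ∈ F),
      normAlong α (β ⟨_, hy⟩) = ⟨_, hg⟩ ∧
      qExpand (IsLocalRing.ResidueField A) ℓ (coeffMap (IsLocalRing.residue A) g) =
        qExpand (IsLocalRing.ResidueField A) (ℓ * ℓ) (coeffMap (IsLocalRing.residue A) y) *
          (coeffMap (IsLocalRing.residue A) y₂) ^ ℓ := by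
  haveI : Fact ℓ.Prime := ⟨hℓ⟩
  haveI : CharP (IsLocalRing.ResidueField A) ℓ :=
    ConjAnalytic.charP_residueField_of_liesOver A hℓ hA
  haveI : NeZero (ℓ : AlgebraicClosure ℚ) := ⟨Nat.cast_ne_zero.mpr hℓ.ne_zero⟩
  obtain ⟨ζ0, hζ0⟩ := HasEnoughRootsOfUnity.exists_primitiveRoot (AlgebraicClosure ℚ) ℓ
  have hζ0A : ζ0 ∈ A := ConjAnalytic.mem_valuationSubring_of_pow_eq_one A hℓ.pos hζ0.pow_eq_one
  have hζ0A' : ζ0⁻¹ ∈ A :=
    ConjAnalytic.mem_valuationSubring_of_pow_eq_one A hℓ.pos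
      (by rw [inv_pow, hζ0.pow_eq_one, inv_one])
  have hζ00 : ζ0 ≠ 0 := hζ0.ne_zero hℓ.ne_zero
  let ζA : Aˣ := ⟨⟨ζ0, hζ0A⟩, ⟨ζ0⁻¹, hζ0A'⟩, Subtype.ext (mul_inv_cancel₀ hζ00),
    Subtype.ext (inv_mul_cancel₀ hζ00)⟩
  let ζ : (AlgebraicClosure ℚ)ˣ := Units.map (A.subtype : A →* AlgebraicClosure ℚ) ζA
  have hζval : (ζ : AlgebraicClosure ℚ) = ζ0 := rfl
  have hζ : IsPrimitiveRoot ζ ℓ := IsPrimitiveRoot.coe_units_iff.mp (by rw [hζval]; exact hζ0)
  let Gt : LaurentSeries A := qExpand A (ℓ * ℓ) y * ∏ b ∈ Finset.range ℓ, rot (ζA ^ b) y₂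
  let n : F := normAlong α (β ⟨_, hy⟩)
  have hnorm : qExpand (AlgebraicClosure ℚ) ℓ (n : LaurentSeries (AlgebraicClosure ℚ)) =
      coeffMap A.subtype Gt := by
    have h := hN ζ hζ ⟨_, hy⟩
    show qExpand (AlgebraicClosure ℚ) ℓ (n : LaurentSeries (AlgebraicClosure ℚ)) =
      coeffMap A.subtype (qExpand A (ℓ * ℓ) y * ∏ b ∈ Finset.range ℓ, rot (ζA ^ b) y₂)
    rw [map_mul, map_prod, coeffMap_qExpand]
    refine h.trans ?_
    congr 1
    refine Finset.prod_congr rfl (fun b _ => ?_)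
    rw [coeffMap_rot, map_pow, hδ]
  have hcoeff : ∀ m : ℤ, (n : LaurentSeries (AlgebraicClosure ℚ)).coeff m ∈ A := by
    intro m
    have h1 : (n : LaurentSeries (AlgebraicClosure ℚ)).coeff m =
        (qExpand (AlgebraicClosure ℚ) ℓ (n : LaurentSeries (AlgebraicClosure ℚ))).coeff
          ((ℓ : ℤ) * m) :=
      (qExpand_coeff_mul ℓ (n : LaurentSeries (AlgebraicClosure ℚ)) m).symm
    rw [h1, hnorm, coeffMap_coeff]
    exact (Gt.coeff _).2
  obtain ⟨g, hg⟩ := ConjAnalytic.exists_coeffMap_subtype_eq A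
    (n : LaurentSeries (AlgebraicClosure ℚ)) hcoeff
  have hgmem : coeffMap A.subtype g ∈ F := by rw [hg]; exact n.2
  refine ⟨g, hgmem, Subtype.ext hg.symm, ?_⟩
  have hgG : qExpand A ℓ g = Gt := by
    apply ConjAnalytic.coeffMap_subtype_injective A
    rw [coeffMap_qExpand, hg, hnorm]
  have hres : Units.map (IsLocalRing.residue A : A →* IsLocalRing.ResidueField A) ζA = 1 := by
    apply Units.ext
    apply ConjAnalytic.eq_one_of_pow_eq_one_of_charP ℓ
    have h1 : (ζA : A) ^ ℓ = 1 := Subtype.ext hζ0.pow_eq_one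
    show (IsLocalRing.residue A (ζA : A)) ^ ℓ = 1
    rw [← map_pow, h1, map_one]
  have h2 := congrArg (coeffMap (IsLocalRing.residue A)) hgG
  rw [coeffMap_qExpand] at h2
  rw [h2]
  show coeffMap (IsLocalRing.residue A)
      (qExpand A (ℓ * ℓ) y * ∏ b ∈ Finset.range ℓ, rot (ζA ^ b) y₂) = _
  rw [map_mul, map_prod, coeffMap_qExpand]
  congr 1
  have h3 : ∀ b ∈ Finset.range ℓ, coeffMap (IsLocalRing.residue A) (rot (ζA ^ b) y₂) =
      coeffMap (IsLocalRing.residue A) y₂ := by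
    intro b _
    rw [coeffMap_rot, map_pow, hres, one_pow, rot_one_apply]
  rw [Finset.prod_congr rfl h3, Finset.prod_const, Finset.card_range]

end Norm

section Builder

variable (F₀ F₀' : IntermediateField ℚ (LaurentSeries ℚ))
  (A : ValuationSubring (AlgebraicClosure ℚ))

/-- **The Hecke congruence data from the norm formula**: `T` with Kummer transfer
`Nm_α ∘ β`, a diamond `D` with Kummer transfer `δ`; the relation of
`frobenius_relation` is then `σ² D x - T (σ x) + ℓ x = 0`. -/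
def heckeCongOfNorm (ℓ m : ℕ) [NeZero ℓ] (hℓ : ℓ.Prime) (hA : A.LiesOverPrime ℓ)
    (α β : laurentBaseChange (AlgebraicClosure ℚ) F₀ →ₐ[AlgebraicClosure ℚ]
      laurentBaseChange (AlgebraicClosure ℚ) F₀')
    (T D : Pic0 (AlgebraicClosure ℚ) (laurentBaseChange (AlgebraicClosure ℚ) F₀) →+
      Pic0 (AlgebraicClosure ℚ) (laurentBaseChange (AlgebraicClosure ℚ) F₀))
    (δ : laurentBaseChange (AlgebraicClosure ℚ) F₀ →*
      laurentBaseChange (AlgebraicClosure ℚ) F₀)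
    (kummer_T : ∀ {x : Pic0 (AlgebraicClosure ℚ) (laurentBaseChange (AlgebraicClosure ℚ) F₀)}
      {f : laurentBaseChange (AlgebraicClosure ℚ) F₀},
      IsKummerPair m x f → IsKummerPair m (T x) (normAlong α (β f)))
    (kummer_D : ∀ {x : Pic0 (AlgebraicClosure ℚ) (laurentBaseChange (AlgebraicClosure ℚ) F₀)}
      {f : laurentBaseChange (AlgebraicClosure ℚ) F₀},
      IsKummerPair m x f → IsKummerPair m (D x) (δ f))
    (galois_δ : ∀ (σ : AlgebraicClosure ℚ ≃ₐ[ℚ] AlgebraicClosure ℚ)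
      (f : laurentBaseChange (AlgebraicClosure ℚ) F₀),
      δ (arithmeticGalois F₀ σ • f) = arithmeticGalois F₀ σ • δ f)
    (integral_δ : ∀ (y : LaurentSeries A)
      (hy : coeffMap A.subtype y ∈ laurentBaseChange (AlgebraicClosure ℚ) F₀),
      coeffMap (IsLocalRing.residue A) y ≠ 0 →
      ∃ (y' : LaurentSeries A)
        (hy' : coeffMap A.subtype y' ∈ laurentBaseChange (AlgebraicClosure ℚ) F₀),
        δ ⟨_, hy⟩ = ⟨_, hy'⟩ ∧ coeffMap (IsLocalRing.residue A) y' ≠ 0)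
    (hN : ∀ ζ : (AlgebraicClosure ℚ)ˣ, IsPrimitiveRoot ζ ℓ →
      ∀ y : laurentBaseChange (AlgebraicClosure ℚ) F₀,
      qExpand (AlgebraicClosure ℚ) ℓ ((normAlong α (β y) :
          laurentBaseChange (AlgebraicClosure ℚ) F₀) : LaurentSeries (AlgebraicClosure ℚ)) =
        qExpand (AlgebraicClosure ℚ) (ℓ * ℓ) (y : LaurentSeries (AlgebraicClosure ℚ)) *
          ∏ b ∈ Finset.range ℓ,
            rot (ζ ^ b) ((δ y : laurentBaseChange (AlgebraicClosure ℚ) F₀) :
              LaurentSeries (AlgebraicClosure ℚ))) :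
    HeckeCong F₀ A ℓ m where
  T := T
  D₁ := AddMonoidHom.id _
  D₂ := D
  NT := (normAlong α).comp (β : laurentBaseChange (AlgebraicClosure ℚ) F₀ →*
    laurentBaseChange (AlgebraicClosure ℚ) F₀')
  δ₁ := MonoidHom.id _
  δ₂ := δ
  kummer_T := fun h => kummer_T h
  kummer_D₁ := fun h => h
  kummer_D₂ := fun h => kummer_D h
  galois_δ₁ := fun _ _ => rfl
  galois_δ₂ := galois_δ
  integral_δ₁ := fun y hy h0 => ⟨y, hy, rfl, h0⟩
  integral_δ₂ := integral_δ
  congruence := fun y y₁ y₂ hy hy₁ hy₂ h₁ h₂ => by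
    have e₁ : y = y₁ := eq_of_mk_eq h₁
    subst e₁
    exact congruence_of_norm ℓ α β (fun f => δ f) hℓ A hA hN y y₂ hy hy₂ h₂

end Builder

end Fermat.Agent.G1.Cong
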