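import Mathlib
import Fermat.Agent.ESJ.Jac.HeckeKummer

/-!
# G1 / CONG: the field norm commutes with intertwined semilinear automorphisms

`normAlong_smul` : if `g`, `g'` are semilinear automorphisms of `F`, `F'` intertwined by
`ψ : F → F'`, then `Nm_ψ (g' • y) = g • Nm_ψ y`.

`normAlong_comp_smul` : consequently the Kummer transfer `NT = Nm_α ∘ β` of a correspondence
`(α, β)` whose two maps are intertwined commutes with the automorphisms:
`NT (g • f) = g • NT f`.  (This is the hypothesis `hNT` of `G1.heckeCong_T_galois`.)
-/

set_option autoImplicit false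

noncomputable section

namespace Fermat.Agent.G1.Cong.NormGal

open AlgebraicCurve
open Fermat.Agent.ESJ.Jac.HeckeKummer

variable {K F F' : Type*} [Field K] [Field F] [Field F'] [Algebra K F] [Algebra K F']

/-- The field norm along `ψ` commutes with a pair of semilinear automorphisms intertwined by
`ψ`. -/
theorem normAlong_smul (ψ : F →ₐ[K] F') {g : SemilinearAut K F} {g' : SemilinearAut K F'}
    (h : SemilinearAut.IntertwinesAlong (ψ : F →+* F') g g') (y : F') :
    normAlong ψ (g' • y) = g • normAlong ψ y := by
  have key := @Algebra.norm_eq_of_equiv_equiv F F' F F' _ _ _ _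
    (algebraAlong ψ) (algebraAlong ψ)
    (SemilinearAut.toRingAut g) (SemilinearAut.toRingAut g') (by
      apply RingHom.ext
      intro x
      show ψ (g • x) = g' • ψ x
      exact (h x).symm) y
  have key' : normAlong ψ y
      = (SemilinearAut.toRingAut g).symm (normAlong ψ (g' • y)) := key
  rw [key']
  show normAlong ψ (g' • y)
    = SemilinearAut.toRingAut g ((SemilinearAut.toRingAut g).symm (normAlong ψ (g' • y)))
  rw [RingEquiv.apply_symm_apply]

/-- The Kummer transfer `Nm_α ∘ β` of a correspondence whose two maps are intertwined with a
pair of semilinear automorphisms commutes with them. -/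
theorem normAlong_comp_smul (α β : F →ₐ[K] F') {g : SemilinearAut K F}
    {g' : SemilinearAut K F'}
    (hα : SemilinearAut.IntertwinesAlong (α : F →+* F') g g')
    (hβ : SemilinearAut.IntertwinesAlong (β : F →+* F') g g') (f : F) :
    normAlong α (β (g • f)) = g • normAlong α (β f) := by
  have h1 : β (g • f) = g' • β f := (hβ f).symm
  rw [h1, normAlong_smul α hα]

end Fermat.Agent.G1.Cong.NormGal
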