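import Fermat.Agent.G1.Cong.NormAbs
import Fermat.Agent.ESJ.RedK.GaussGal

/-!
# G1 / CONG: the Eichler–Shimura relation on torsion in Gauss-ring form

`TorsionESAbs.HeckeCong` asks the Kummer transfers `δᵢ` of the diamond operators to preserve
`A`-integral *series*.  For a non-trivial diamond operator this is false (a diamond moves the cusp
`∞`; an integral `q`-expansion at `∞` only controls the residue disc of `∞`).  What is true is
that the diamonds preserve the units of the Gauss valuation ring `F ∩ gaussRing`.  This file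
restates the Hecke congruence data in that form, with

`RedTo y g` := "`y` lies in `Lib.Red.gaussRing A (residue A)` and `Lib.Red.red y = g`"
(`ESJ/RedK/GaussGal.lean`),

and proves the relation again.  The hypotheses `IntegralScaling F₀ A` and `KummerRootF F₀ A m`
keep their literal shapes from `TorsionESAbs.lean`.

* `eq_zero_of_redTo_one` : a torsion class with a Kummer function reducing to `1` is zero;
* `HeckeCongG F₀ A ℓ m` : the Hecke congruence data (Gauss-ring form);
* `frobenius_relationG` : `σ² D₂ x - T (σ x) + ℓ D₁ x = 0` on `J[m]` for a Frobenius element `σ`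
  of `A` over `ℓ`;
* `exists_redTo_descend` : descent of Gauss-ring membership along `q ↦ q^ℓ`;
* `heckeCongGOfNorm` : the structure from the characteristic-zero norm formula
  (`NormAbs.qExpand_norm_of_conj`), with `D₁ = id`, `D₂ = D`.
-/

set_option autoImplicit false
set_option linter.unusedSectionVars false

noncomputable section

namespace Fermat.Agent.G1.Cong

open ModularCurve AlgebraicCurve HahnSeries
open Fermat.Agent.S28 Fermat.Agent.S28.Chain
open Fermat.Agent.ESJ.Jac Fermat.Agent.ESJ.Jac.HeckeKummer Fermat.Agent.ESJ.Cong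
open Fermat.Agent.Lib.Red Fermat.Agent.ESJ.RedK

/-! ### Generic Gauss-ring lemmas -/

section Generic

variable {L : Type*} [Field L] {A : ValuationSubring L}

/-- The residue map kills the non-units. -/
theorem residueA_eq_zero (a : A) (ha : ¬ IsUnit a) : IsLocalRing.residue A a = 0 :=
  (IsLocalRing.residue_eq_zero_iff a).mpr ((IsLocalRing.mem_maximalIdeal a).mpr ha)

variable {k : Type*} [Field k] {π : A →+* k}

/-- `A`-integral series reduce coefficientwise. -/
theorem redTo_incl (y : LaurentSeries A) :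
    RedTo A π (coeffMap A.subtype y) (coeffMap π y) :=
  ⟨incl_mem_gaussRing A π y, red_incl A π y⟩

/-- A quotient of `A`-integral series with nonzero denominator modulo `π`. -/
theorem redTo_of_mul_incl {z : LaurentSeries L} {P s : LaurentSeries A}
    (hs : coeffMap π s ≠ 0) (h : z * coeffMap A.subtype s = coeffMap A.subtype P) :
    RedTo A π z (coeffMap π P / coeffMap π s) := by
  have hs0 : coeffMap A.subtype s ≠ 0 := by
    intro h0
    apply hs
    have : s = 0 := (coeffMap_eq_zero_iff_of_injective A.subtype Subtype.val_injective s).mp h0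
    rw [this, map_zero]
  have h1 := (redTo_incl (π := π) P).mul ((redTo_incl (π := π) s).inv hs)
  refine (h1.congr_right (div_eq_mul_inv _ _).symm).congr_left ?_
  rw [← h, mul_assoc, mul_inv_cancel₀ hs0, mul_one]

/-- A series reducing to something nonzero is nonzero. -/
theorem ne_zero_of_redTo {z : LaurentSeries L} {u : LaurentSeries k} (h : RedTo A π z u)
    (hu : u ≠ 0) : z ≠ 0 := by
  rintro rfl
  exact hu (h.unique RedTo.zero)

/-- **Descent along `q ↦ q^ℓ`**: if a constant multiple of `g` is a Gauss unit and `g(q^ℓ)` lies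
in the Gauss ring, then so does `g`, and the reductions correspond. -/
theorem exists_redTo_descend (hπ : ∀ a : A, ¬ IsUnit a → π a = 0) (ℓ : ℕ) [NeZero ℓ]
    {g : LaurentSeries L} {a : L} (ha : a ≠ 0) {ψ : LaurentSeries k} (hψ : ψ ≠ 0)
    (h : RedTo A π (HahnSeries.C a * g) ψ) {G₀ : LaurentSeries k}
    (hG : RedTo A π (qExpand L ℓ g) G₀) :
    ∃ g' : LaurentSeries k, RedTo A π g g' ∧ qExpand k ℓ g' = G₀ := by
  have h1 : RedTo A π (HahnSeries.C a * qExpand L ℓ g) (qExpand k ℓ ψ) := by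
    refine (h.qExpand ℓ).congr_left ?_
    rw [map_mul, HahnSeries.C_apply, qExpand_single, mul_zero]
  have hψ' : qExpand k ℓ ψ ≠ 0 := fun h0 => hψ (qExpand_injective ℓ (by rw [h0, map_zero]))
  obtain ⟨hay, hred⟩ := h1
  have hinv : a⁻¹ ∈ A := inv_mem_of_red_ne_zero A π hπ hG.mem hay (by rw [hred]; exact hψ')
  have h2 : RedTo A π g (HahnSeries.C (π ⟨a⁻¹, hinv⟩) * ψ) := by
    refine ((RedTo.const (A := A) (π := π) ⟨a⁻¹, hinv⟩).mul h).congr_left ?_
    show HahnSeries.C a⁻¹ * (HahnSeries.C a * g) = g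
    rw [← mul_assoc, ← map_mul, inv_mul_cancel₀ ha, map_one, one_mul]
  exact ⟨_, h2, (h2.qExpand ℓ).unique hG⟩

end Generic

variable (F₀ : IntermediateField ℚ (LaurentSeries ℚ))
  (A : ValuationSubring (AlgebraicClosure ℚ))

variable {F₀ A}

/-- The constants of `ℚ̄·F₀` as series. -/
theorem coe_algebraMapBar_eq_C (a : AlgebraicClosure ℚ) :
    ((algebraMap (AlgebraicClosure ℚ) (laurentBaseChange (AlgebraicClosure ℚ) F₀) a :
      laurentBaseChange (AlgebraicClosure ℚ) F₀) : LaurentSeries (AlgebraicClosure ℚ)) =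
      HahnSeries.C a :=
  (C_eq_algebraMap a).symm

/-- Every nonzero function is a constant multiple of a Gauss unit. -/
theorem exists_const_mul_redTo (hS : IntegralScaling F₀ A)
    (f : laurentBaseChange (AlgebraicClosure ℚ) F₀) (hf : f ≠ 0) :
    ∃ (a : AlgebraicClosure ℚ) (ψ : LaurentSeries (IsLocalRing.ResidueField A)), a ≠ 0 ∧ ψ ≠ 0 ∧
      RedTo A (IsLocalRing.residue A)
        (HahnSeries.C a * (f : LaurentSeries (AlgebraicClosure ℚ))) ψ := by
  obtain ⟨a, P, s, hPF, hsF, ha, hP, hs, heq⟩ := hS f hf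
  refine ⟨a, _, ha, div_ne_zero hP hs, redTo_of_mul_incl hs ?_⟩
  have h1 := congrArg (Subtype.val) heq
  rw [← coe_algebraMapBar_eq_C (F₀ := F₀)]
  exact h1

/-- Every torsion class has a Kummer function which is a Gauss unit. -/
theorem exists_redTo_kummerPair (hS : IntegralScaling F₀ A) {m : ℕ}
    {x : Pic0 (AlgebraicClosure ℚ) (laurentBaseChange (AlgebraicClosure ℚ) F₀)}
    (hx : (m : ℤ) • x = 0) :
    ∃ (f : laurentBaseChange (AlgebraicClosure ℚ) F₀)
      (u : LaurentSeries (IsLocalRing.ResidueField A)),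
      IsKummerPair m x f ∧ u ≠ 0 ∧
        RedTo A (IsLocalRing.residue A) (f : LaurentSeries (AlgebraicClosure ℚ)) u := by
  obtain ⟨f, P, s, hPF, hsF, hf, hP, hs, hfs⟩ := exists_integral_kummerPair hS hx
  exact ⟨f, _, hf, div_ne_zero hP hs, redTo_of_mul_incl hs (congrArg Subtype.val hfs)⟩

/-- **A torsion class with a Kummer function reducing to `1` is zero.** -/
theorem eq_zero_of_redTo_one (hS : IntegralScaling F₀ A) {m : ℕ} (hm : m ≠ 0)
    (hK : KummerRootF F₀ A m)
    {x : Pic0 (AlgebraicClosure ℚ) (laurentBaseChange (AlgebraicClosure ℚ) F₀)}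
    {H : laurentBaseChange (AlgebraicClosure ℚ) F₀}
    (hpair : IsKummerPair m x H)
    (h1 : RedTo A (IsLocalRing.residue A) (H : LaurentSeries (AlgebraicClosure ℚ)) 1) :
    x = 0 := by
  obtain ⟨a, P, s, hPF, hsF, ha, hP, hs, heq⟩ := hS H hpair.ne_zero
  have heq' : HahnSeries.C a * (H : LaurentSeries (AlgebraicClosure ℚ)) * coeffMap A.subtype s =
      coeffMap A.subtype P := by
    have h := congrArg (Subtype.val) heq
    rw [← coe_algebraMapBar_eq_C (F₀ := F₀)]
    exact h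
  have hred : RedTo A (IsLocalRing.residue A)
      (HahnSeries.C a * (H : LaurentSeries (AlgebraicClosure ℚ)))
      (coeffMap (IsLocalRing.residue A) P / coeffMap (IsLocalRing.residue A) s) :=
    redTo_of_mul_incl hs heq'
  obtain ⟨b, hb, hH⟩ := RedTo.of_const_mul residueA_eq_zero ha hred hred
    (div_ne_zero hP hs) h1.mem
  have h2 := h1.unique hH
  -- the integral series `b • P`
  have hy : coeffMap A.subtype (HahnSeries.C b * P) ∈
      laurentBaseChange (AlgebraicClosure ℚ) F₀ := by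
    rw [map_mul]
    refine mul_mem ?_ hPF
    have : coeffMap A.subtype (HahnSeries.C b) = HahnSeries.C (b : AlgebraicClosure ℚ) :=
      incl_C A b
    rw [this]
    exact C_mem _ _
  have hbar : coeffMap (IsLocalRing.residue A) (HahnSeries.C b * P) =
      coeffMap (IsLocalRing.residue A) s := by
    have e : coeffMap (IsLocalRing.residue A) (HahnSeries.C b) =
        HahnSeries.C (IsLocalRing.residue A b) := rbar_C A _ b
    rw [map_mul, e]
    have h3 : (1 : LaurentSeries (IsLocalRing.ResidueField A)) *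
        coeffMap (IsLocalRing.residue A) s =
        HahnSeries.C (IsLocalRing.residue A b) * coeffMap (IsLocalRing.residue A) P := by
      rw [h2, mul_assoc, div_mul_cancel₀ _ hs]
    rw [← h3, one_mul]
  refine eq_zero_of_ratio hm hK hpair (HahnSeries.C b * P) s hy hsF hs hbar (Subtype.ext ?_)
  show (H : LaurentSeries (AlgebraicClosure ℚ)) * coeffMap A.subtype s =
    coeffMap A.subtype (HahnSeries.C b * P)
  have e : coeffMap A.subtype (HahnSeries.C b) = HahnSeries.C (b : AlgebraicClosure ℚ) :=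
    incl_C A b
  rw [map_mul, e, hb, ← heq', ← mul_assoc, ← mul_assoc, ← map_mul, inv_mul_cancel₀ ha, map_one,
    one_mul]

/-- The decomposition group acts on the Gauss ring, compatibly with the reduction. -/
theorem redTo_galois_smul (σ : A.decompositionSubgroup ℚ)
    (f : laurentBaseChange (AlgebraicClosure ℚ) F₀)
    {u : LaurentSeries (IsLocalRing.ResidueField A)}
    (h : RedTo A (IsLocalRing.residue A) (f : LaurentSeries (AlgebraicClosure ℚ)) u) :
    RedTo A (IsLocalRing.residue A)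
      ((arithmeticGalois F₀ ((σ : AlgebraicClosure ℚ ≃ₐ[ℚ] AlgebraicClosure ℚ)) • f :
        laurentBaseChange (AlgebraicClosure ℚ) F₀) : LaurentSeries (AlgebraicClosure ℚ))
      (coeffMap ((resAut A σ : IsLocalRing.ResidueField A ≃+* IsLocalRing.ResidueField A) :
          IsLocalRing.ResidueField A →+* IsLocalRing.ResidueField A) u) := by
  rw [coe_arithmeticGalois_smul]
  exact h.coeffMap _ (decompRingHom A σ) _ (fun a => coe_decompRingHom A σ a)
    (fun a => residue_decompRingHom A σ a)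

/-! ### The Hecke congruence data (Gauss-ring form) and the Frobenius relation -/

variable (F₀ A)

/-- **The Hecke congruence at `ℓ`** for `ℚ̄·F₀`, on `m`-torsion, in Gauss-ring form: an operator
`T` on `J` with Kummer transfer `NT` (in the modular case: `NT = Nm_α ∘ β`), two operators
`D₁, D₂` on `J` with Kummer transfers `δ₁, δ₂` which commute with the Galois action and preserve
the units of the Gauss valuation ring, and the congruence
`red (NT f)(q^ℓ) = red (δ₁ f)(q^{ℓ²}) · red (δ₂ f)(q)^ℓ` for Gauss units `f`. -/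
structure HeckeCongG (ℓ m : ℕ) [NeZero ℓ] where
  /-- the Hecke operator -/
  T : Pic0 (AlgebraicClosure ℚ) (laurentBaseChange (AlgebraicClosure ℚ) F₀) →+
    Pic0 (AlgebraicClosure ℚ) (laurentBaseChange (AlgebraicClosure ℚ) F₀)
  /-- the operator in front of `ℓ` -/
  D₁ : Pic0 (AlgebraicClosure ℚ) (laurentBaseChange (AlgebraicClosure ℚ) F₀) →+
    Pic0 (AlgebraicClosure ℚ) (laurentBaseChange (AlgebraicClosure ℚ) F₀)
  /-- the operator in front of `σ²` -/
  D₂ : Pic0 (AlgebraicClosure ℚ) (laurentBaseChange (AlgebraicClosure ℚ) F₀) →+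
    Pic0 (AlgebraicClosure ℚ) (laurentBaseChange (AlgebraicClosure ℚ) F₀)
  /-- Kummer transfer of `T` -/
  NT : laurentBaseChange (AlgebraicClosure ℚ) F₀ →* laurentBaseChange (AlgebraicClosure ℚ) F₀
  /-- Kummer transfer of `D₁` -/
  δ₁ : laurentBaseChange (AlgebraicClosure ℚ) F₀ →* laurentBaseChange (AlgebraicClosure ℚ) F₀
  /-- Kummer transfer of `D₂` -/
  δ₂ : laurentBaseChange (AlgebraicClosure ℚ) F₀ →* laurentBaseChange (AlgebraicClosure ℚ) F₀
  kummer_T : ∀ {x : Pic0 (AlgebraicClosure ℚ) (laurentBaseChange (AlgebraicClosure ℚ) F₀)}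
    {f : laurentBaseChange (AlgebraicClosure ℚ) F₀},
    IsKummerPair m x f → IsKummerPair m (T x) (NT f)
  kummer_D₁ : ∀ {x : Pic0 (AlgebraicClosure ℚ) (laurentBaseChange (AlgebraicClosure ℚ) F₀)}
    {f : laurentBaseChange (AlgebraicClosure ℚ) F₀},
    IsKummerPair m x f → IsKummerPair m (D₁ x) (δ₁ f)
  kummer_D₂ : ∀ {x : Pic0 (AlgebraicClosure ℚ) (laurentBaseChange (AlgebraicClosure ℚ) F₀)}
    {f : laurentBaseChange (AlgebraicClosure ℚ) F₀},
    IsKummerPair m x f → IsKummerPair m (D₂ x) (δ₂ f)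
  galois_δ₁ : ∀ (σ : AlgebraicClosure ℚ ≃ₐ[ℚ] AlgebraicClosure ℚ)
    (f : laurentBaseChange (AlgebraicClosure ℚ) F₀),
    δ₁ (arithmeticGalois F₀ σ • f) = arithmeticGalois F₀ σ • δ₁ f
  galois_δ₂ : ∀ (σ : AlgebraicClosure ℚ ≃ₐ[ℚ] AlgebraicClosure ℚ)
    (f : laurentBaseChange (AlgebraicClosure ℚ) F₀),
    δ₂ (arithmeticGalois F₀ σ • f) = arithmeticGalois F₀ σ • δ₂ f
  unit_δ₁ : ∀ (f : laurentBaseChange (AlgebraicClosure ℚ) F₀)
    (u : LaurentSeries (IsLocalRing.ResidueField A)), u ≠ 0 →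
    RedTo A (IsLocalRing.residue A) (f : LaurentSeries (AlgebraicClosure ℚ)) u →
    ∃ u' : LaurentSeries (IsLocalRing.ResidueField A), u' ≠ 0 ∧
      RedTo A (IsLocalRing.residue A) ((δ₁ f : laurentBaseChange (AlgebraicClosure ℚ) F₀) :
        LaurentSeries (AlgebraicClosure ℚ)) u'
  unit_δ₂ : ∀ (f : laurentBaseChange (AlgebraicClosure ℚ) F₀)
    (u : LaurentSeries (IsLocalRing.ResidueField A)), u ≠ 0 →
    RedTo A (IsLocalRing.residue A) (f : LaurentSeries (AlgebraicClosure ℚ)) u →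
    ∃ u' : LaurentSeries (IsLocalRing.ResidueField A), u' ≠ 0 ∧
      RedTo A (IsLocalRing.residue A) ((δ₂ f : laurentBaseChange (AlgebraicClosure ℚ) F₀) :
        LaurentSeries (AlgebraicClosure ℚ)) u'
  congruence : ∀ (f : laurentBaseChange (AlgebraicClosure ℚ) F₀)
    (u u₁ u₂ : LaurentSeries (IsLocalRing.ResidueField A)), u ≠ 0 →
    RedTo A (IsLocalRing.residue A) (f : LaurentSeries (AlgebraicClosure ℚ)) u →
    RedTo A (IsLocalRing.residue A) ((δ₁ f : laurentBaseChange (AlgebraicClosure ℚ) F₀) :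
      LaurentSeries (AlgebraicClosure ℚ)) u₁ →
    RedTo A (IsLocalRing.residue A) ((δ₂ f : laurentBaseChange (AlgebraicClosure ℚ) F₀) :
      LaurentSeries (AlgebraicClosure ℚ)) u₂ →
    ∃ g : LaurentSeries (IsLocalRing.ResidueField A),
      RedTo A (IsLocalRing.residue A) ((NT f : laurentBaseChange (AlgebraicClosure ℚ) F₀) :
        LaurentSeries (AlgebraicClosure ℚ)) g ∧
      qExpand (IsLocalRing.ResidueField A) ℓ g =
        qExpand (IsLocalRing.ResidueField A) (ℓ * ℓ) u₁ * u₂ ^ ℓ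

variable {F₀ A}

/-- **The Eichler–Shimura relation on torsion** (Gauss-ring form of the Hecke congruence data):
for a Frobenius element `σ` of `A` over `ℓ`, `σ² D₂ x - T (σ x) + ℓ D₁ x = 0` on `J[m]`. -/
theorem frobenius_relationG (hS : IntegralScaling F₀ A) (ℓ : ℕ) [NeZero ℓ] (hℓ : ℓ.Prime)
    (hA : A.LiesOverPrime ℓ) {m : ℕ} (hm : m ≠ 0) (hK : KummerRootF F₀ A m)
    (C : HeckeCongG F₀ A ℓ m)
    (σ : AlgebraicClosure ℚ ≃ₐ[ℚ] AlgebraicClosure ℚ) (hσ : A.IsFrobeniusAt σ ℓ)
    (x : Pic0 (AlgebraicClosure ℚ) (laurentBaseChange (AlgebraicClosure ℚ) F₀))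
    (hx : (m : ℤ) • x = 0) :
    σ • σ • C.D₂ x - C.T (σ • x) + ℓ • C.D₁ x = 0 := by
  have : Fact ℓ.Prime := ⟨hℓ⟩
  have hchar : CharP (IsLocalRing.ResidueField A) ℓ :=
    ConjAnalytic.charP_residueField_of_liesOver A hℓ hA
  have : ExpChar (IsLocalRing.ResidueField A) ℓ := ExpChar.prime hℓ
  obtain ⟨f, φ, hf, hφ0, hfφ⟩ := exists_redTo_kummerPair hS hx
  have hd := hσ.mem_decompositionSubgroup
  have hφ : ((resAut A ⟨σ, hd⟩ : IsLocalRing.ResidueField A ≃+* IsLocalRing.ResidueField A) :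
      IsLocalRing.ResidueField A →+* IsLocalRing.ResidueField A) =
      frobenius (IsLocalRing.ResidueField A) ℓ :=
    RingHom.ext fun u => by
      rw [frobenius_def]
      exact resAut_apply_of_isFrobeniusAt A hσ u
  have hfrob_ne : ∀ u : LaurentSeries (IsLocalRing.ResidueField A), u ≠ 0 →
      coeffMap (frobenius (IsLocalRing.ResidueField A) ℓ) u ≠ 0 := fun u hu h0 =>
    hu ((coeffMap_eq_zero_iff_of_injective _ (frobenius_inj _ ℓ) _).mp h0)
  set G := arithmeticGalois F₀ σ with hG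
  have hgal : ∀ (h : laurentBaseChange (AlgebraicClosure ℚ) F₀)
      (u : LaurentSeries (IsLocalRing.ResidueField A)),
      RedTo A (IsLocalRing.residue A) (h : LaurentSeries (AlgebraicClosure ℚ)) u →
      RedTo A (IsLocalRing.residue A)
        ((G • h : laurentBaseChange (AlgebraicClosure ℚ) F₀) :
          LaurentSeries (AlgebraicClosure ℚ))
        (coeffMap (frobenius (IsLocalRing.ResidueField A) ℓ) u) := by
    intro h u hu
    have := redTo_galois_smul (F₀ := F₀) ⟨σ, hd⟩ h hu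
    rwa [hφ] at this
  -- the diamonds of `f`
  obtain ⟨a, ha0, hδ₁f⟩ := C.unit_δ₁ f φ hφ0 hfφ
  obtain ⟨b, hb0, hδ₂f⟩ := C.unit_δ₂ f φ hφ0 hfφ
  -- the conjugate `G • f` and its diamonds
  have hGf' := hgal f φ hfφ
  have hδ₁Gf : RedTo A (IsLocalRing.residue A)
      ((C.δ₁ (G • f) : laurentBaseChange (AlgebraicClosure ℚ) F₀) :
        LaurentSeries (AlgebraicClosure ℚ))
      (coeffMap (frobenius (IsLocalRing.ResidueField A) ℓ) a) := by
    rw [C.galois_δ₁]
    exact hgal _ a hδ₁f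
  have hδ₂Gf : RedTo A (IsLocalRing.residue A)
      ((C.δ₂ (G • f) : laurentBaseChange (AlgebraicClosure ℚ) F₀) :
        LaurentSeries (AlgebraicClosure ℚ))
      (coeffMap (frobenius (IsLocalRing.ResidueField A) ℓ) b) := by
    rw [C.galois_δ₂]
    exact hgal _ b hδ₂f
  -- the norm
  obtain ⟨g, hNg, hg⟩ := C.congruence (G • f) _ _ _ (hfrob_ne φ hφ0) hGf' hδ₁Gf hδ₂Gf
  have hg' := eq_of_qExpand_eq₂ ℓ _ _ _ hg
  have hGGb : RedTo A (IsLocalRing.residue A)
      ((G • G • C.δ₂ f : laurentBaseChange (AlgebraicClosure ℚ) F₀) :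
        LaurentSeries (AlgebraicClosure ℚ))
      (coeffMap (frobenius (IsLocalRing.ResidueField A) ℓ)
        (coeffMap (frobenius (IsLocalRing.ResidueField A) ℓ) b)) :=
    hgal _ _ (hgal _ _ hδ₂f)
  have hbb0 : coeffMap (frobenius (IsLocalRing.ResidueField A) ℓ)
      (coeffMap (frobenius (IsLocalRing.ResidueField A) ℓ) b) ≠ 0 :=
    hfrob_ne _ (hfrob_ne _ hb0)
  have hg0 : g ≠ 0 := by
    rw [hg']
    exact mul_ne_zero (pow_ne_zero ℓ ha0) hbb0
  -- Kummer pairs
  have hGf : IsKummerPair m (σ • x) (G • f) := TorsionESK.isKummerPair_semilinear_smul hf G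
  have hD₂f : IsKummerPair m (C.D₂ x) (C.δ₂ f) := C.kummer_D₂ hf
  have hGD₂f : IsKummerPair m (σ • C.D₂ x) (G • C.δ₂ f) :=
    TorsionESK.isKummerPair_semilinear_smul hD₂f G
  have hGGD₂f : IsKummerPair m (σ • σ • C.D₂ x) (G • G • C.δ₂ f) :=
    TorsionESK.isKummerPair_semilinear_smul hGD₂f G
  have hT : IsKummerPair m (C.T (σ • x)) (C.NT (G • f)) := C.kummer_T hGf
  have hD₁f : IsKummerPair m (C.D₁ x) (C.δ₁ f) := C.kummer_D₁ hf
  have hℓx : IsKummerPair m (ℓ • C.D₁ x) (C.δ₁ f ^ ℓ) := hD₁f.nsmul ℓ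
  have hpair := (hGGD₂f.add hT.neg).add hℓx
  have hred : RedTo A (IsLocalRing.residue A)
      ((G • G • C.δ₂ f * (C.NT (G • f))⁻¹ * C.δ₁ f ^ ℓ :
        laurentBaseChange (AlgebraicClosure ℚ) F₀) : LaurentSeries (AlgebraicClosure ℚ)) 1 := by
    have h := (hGGb.mul (hNg.inv hg0)).mul (hδ₁f.pow ℓ)
    have e : coeffMap (frobenius (IsLocalRing.ResidueField A) ℓ)
        (coeffMap (frobenius (IsLocalRing.ResidueField A) ℓ) b) * g⁻¹ * a ^ ℓ = 1 := by
      rw [hg']
      field_simp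
    rw [e] at h
    exact h
  rw [sub_eq_add_neg]
  exact eq_zero_of_redTo_one hS hm hK hpair hred

/-! ### The Hecke congruence data from the characteristic-zero norm formula -/

section Builder

variable (F₀ F₀' : IntermediateField ℚ (LaurentSeries ℚ))
  (A : ValuationSubring (AlgebraicClosure ℚ))

variable {F₀ A} in
/-- **The Gauss-ring congruence from the characteristic-zero norm formula**
`NT y (q^ℓ) = y(q^(ℓ²)) · ∏_{b < ℓ} (δ y)(ζ^b q)`. -/
theorem congruenceG_of_norm (hS : IntegralScaling F₀ A) (ℓ : ℕ) [NeZero ℓ] (hℓ : ℓ.Prime)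
    (hA : A.LiesOverPrime ℓ)
    (NT δ : laurentBaseChange (AlgebraicClosure ℚ) F₀ →*
      laurentBaseChange (AlgebraicClosure ℚ) F₀)
    (hN : ∀ ζ : (AlgebraicClosure ℚ)ˣ, IsPrimitiveRoot ζ ℓ →
      ∀ y : laurentBaseChange (AlgebraicClosure ℚ) F₀,
      qExpand (AlgebraicClosure ℚ) ℓ ((NT y :
          laurentBaseChange (AlgebraicClosure ℚ) F₀) : LaurentSeries (AlgebraicClosure ℚ)) =
        qExpand (AlgebraicClosure ℚ) (ℓ * ℓ) (y : LaurentSeries (AlgebraicClosure ℚ)) *
          ∏ b ∈ Finset.range ℓ,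
            rot (ζ ^ b) ((δ y : laurentBaseChange (AlgebraicClosure ℚ) F₀) :
              LaurentSeries (AlgebraicClosure ℚ)))
    (f : laurentBaseChange (AlgebraicClosure ℚ) F₀)
    (u u₂ : LaurentSeries (IsLocalRing.ResidueField A)) (hu : u ≠ 0)
    (hf : RedTo A (IsLocalRing.residue A) (f : LaurentSeries (AlgebraicClosure ℚ)) u)
    (hδ : RedTo A (IsLocalRing.residue A) ((δ f : laurentBaseChange (AlgebraicClosure ℚ) F₀) :
      LaurentSeries (AlgebraicClosure ℚ)) u₂) :
    ∃ g : LaurentSeries (IsLocalRing.ResidueField A),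
      RedTo A (IsLocalRing.residue A) ((NT f : laurentBaseChange (AlgebraicClosure ℚ) F₀) :
        LaurentSeries (AlgebraicClosure ℚ)) g ∧
      qExpand (IsLocalRing.ResidueField A) ℓ g =
        qExpand (IsLocalRing.ResidueField A) (ℓ * ℓ) u * u₂ ^ ℓ := by
  have : Fact ℓ.Prime := ⟨hℓ⟩
  have : CharP (IsLocalRing.ResidueField A) ℓ :=
    ConjAnalytic.charP_residueField_of_liesOver A hℓ hA
  have : NeZero (ℓ : AlgebraicClosure ℚ) := ⟨Nat.cast_ne_zero.mpr hℓ.ne_zero⟩
  obtain ⟨ζ0, hζ0⟩ := HasEnoughRootsOfUnity.exists_primitiveRoot (AlgebraicClosure ℚ) ℓ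
  have hζ0A : ζ0 ∈ A := ConjAnalytic.mem_valuationSubring_of_pow_eq_one A hℓ.pos hζ0.pow_eq_one
  have hζ0A' : ζ0⁻¹ ∈ A :=
    ConjAnalytic.mem_valuationSubring_of_pow_eq_one A hℓ.pos
      (by rw [inv_pow, hζ0.pow_eq_one, inv_one])
  have hζ00 : ζ0 ≠ 0 := hζ0.ne_zero hℓ.ne_zero
  let ζA : Aˣ := ⟨⟨ζ0, hζ0A⟩, ⟨ζ0⁻¹, hζ0A'⟩, Subtype.ext (mul_inv_cancel₀ hζ00),
    Subtype.ext (inv_mul_cancel₀ hζ00)⟩
  let ζ : (AlgebraicClosure ℚ)ˣ := Units.map (A.subtype : A →* AlgebraicClosure ℚ) ζA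
  have hζval : (ζ : AlgebraicClosure ℚ) = ζ0 := rfl
  have hζ : IsPrimitiveRoot ζ ℓ := IsPrimitiveRoot.coe_units_iff.mp (by rw [hζval]; exact hζ0)
  have hres : Units.map (IsLocalRing.residue A : A →* IsLocalRing.ResidueField A) ζA = 1 := by
    apply Units.ext
    apply ConjAnalytic.eq_one_of_pow_eq_one_of_charP ℓ
    have h1 : (ζA : A) ^ ℓ = 1 := Subtype.ext hζ0.pow_eq_one
    show (IsLocalRing.residue A (ζA : A)) ^ ℓ = 1
    rw [← map_pow, h1, map_one]
  have hrot : ∀ b ∈ Finset.range ℓ, RedTo A (IsLocalRing.residue A)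
      (rot (ζ ^ b) ((δ f : laurentBaseChange (AlgebraicClosure ℚ) F₀) :
        LaurentSeries (AlgebraicClosure ℚ))) u₂ := by
    intro b _
    have h := hδ.rot (ζA ^ b)
    rw [map_pow, map_pow, hres, one_pow, rot_one_apply] at h
    exact h
  have hG : RedTo A (IsLocalRing.residue A)
      (qExpand (AlgebraicClosure ℚ) ℓ ((NT f : laurentBaseChange (AlgebraicClosure ℚ) F₀) :
        LaurentSeries (AlgebraicClosure ℚ)))
      (qExpand (IsLocalRing.ResidueField A) (ℓ * ℓ) u * u₂ ^ ℓ) := by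
    have h := (hf.qExpand (ℓ * ℓ)).mul (RedTo.prod (Finset.range ℓ) _ (fun _ => u₂) hrot)
    rw [Finset.prod_const, Finset.card_range] at h
    exact h.congr_left (hN ζ hζ f).symm
  have hf0 : f ≠ 0 := fun h0 => ne_zero_of_redTo hf hu (by rw [h0]; rfl)
  have hNf0 : NT f ≠ 0 := by
    intro h0
    have h1 : NT f * NT f⁻¹ = 1 := by rw [← map_mul, mul_inv_cancel₀ hf0, map_one]
    rw [h0, zero_mul] at h1
    exact zero_ne_one h1
  obtain ⟨a, ψ, ha, hψ, h⟩ := exists_const_mul_redTo hS (NT f) hNf0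
  exact exists_redTo_descend residueA_eq_zero ℓ ha hψ h hG

/-- **The Hecke congruence data (Gauss-ring form) from the norm formula**: `T` with Kummer
transfer `Nm_α ∘ β`, a diamond `D` with Kummer transfer `δ` preserving Gauss units; the relation
of `frobenius_relationG` is then `σ² D x - T (σ x) + ℓ x = 0`. -/
def heckeCongGOfNorm (hS : IntegralScaling F₀ A) (ℓ m : ℕ) [NeZero ℓ] (hℓ : ℓ.Prime)
    (hA : A.LiesOverPrime ℓ)
    (α β : laurentBaseChange (AlgebraicClosure ℚ) F₀ →ₐ[AlgebraicClosure ℚ]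
      laurentBaseChange (AlgebraicClosure ℚ) F₀')
    (T D : Pic0 (AlgebraicClosure ℚ) (laurentBaseChange (AlgebraicClosure ℚ) F₀) →+
      Pic0 (AlgebraicClosure ℚ) (laurentBaseChange (AlgebraicClosure ℚ) F₀))
    (δ : laurentBaseChange (AlgebraicClosure ℚ) F₀ →*
      laurentBaseChange (AlgebraicClosure ℚ) F₀)
    (kummer_T : ∀ {x : Pic0 (AlgebraicClosure ℚ) (laurentBaseChange (AlgebraicClosure ℚ) F₀)}
      {f : laurentBaseChange (AlgebraicClosure ℚ) F₀},
      IsKummerPair m x f → IsKummerPair m (T x) (normAlong α (β f)))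
    (kummer_D : ∀ {x : Pic0 (AlgebraicClosure ℚ) (laurentBaseChange (AlgebraicClosure ℚ) F₀)}
      {f : laurentBaseChange (AlgebraicClosure ℚ) F₀},
      IsKummerPair m x f → IsKummerPair m (D x) (δ f))
    (galois_δ : ∀ (σ : AlgebraicClosure ℚ ≃ₐ[ℚ] AlgebraicClosure ℚ)
      (f : laurentBaseChange (AlgebraicClosure ℚ) F₀),
      δ (arithmeticGalois F₀ σ • f) = arithmeticGalois F₀ σ • δ f)
    (unit_δ : ∀ (f : laurentBaseChange (AlgebraicClosure ℚ) F₀)
      (u : LaurentSeries (IsLocalRing.ResidueField A)), u ≠ 0 →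
      RedTo A (IsLocalRing.residue A) (f : LaurentSeries (AlgebraicClosure ℚ)) u →
      ∃ u' : LaurentSeries (IsLocalRing.ResidueField A), u' ≠ 0 ∧
        RedTo A (IsLocalRing.residue A) ((δ f : laurentBaseChange (AlgebraicClosure ℚ) F₀) :
          LaurentSeries (AlgebraicClosure ℚ)) u')
    (hN : ∀ ζ : (AlgebraicClosure ℚ)ˣ, IsPrimitiveRoot ζ ℓ →
      ∀ y : laurentBaseChange (AlgebraicClosure ℚ) F₀,
      qExpand (AlgebraicClosure ℚ) ℓ ((normAlong α (β y) :
          laurentBaseChange (AlgebraicClosure ℚ) F₀) : LaurentSeries (AlgebraicClosure ℚ)) =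
        qExpand (AlgebraicClosure ℚ) (ℓ * ℓ) (y : LaurentSeries (AlgebraicClosure ℚ)) *
          ∏ b ∈ Finset.range ℓ,
            rot (ζ ^ b) ((δ y : laurentBaseChange (AlgebraicClosure ℚ) F₀) :
              LaurentSeries (AlgebraicClosure ℚ))) :
    HeckeCongG F₀ A ℓ m where
  T := T
  D₁ := AddMonoidHom.id _
  D₂ := D
  NT := (normAlong α).comp (β : laurentBaseChange (AlgebraicClosure ℚ) F₀ →*
    laurentBaseChange (AlgebraicClosure ℚ) F₀')
  δ₁ := MonoidHom.id _
  δ₂ := δ
  kummer_T := fun h => kummer_T h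
  kummer_D₁ := fun h => h
  kummer_D₂ := fun h => kummer_D h
  galois_δ₁ := fun _ _ => rfl
  galois_δ₂ := galois_δ
  unit_δ₁ := fun _ u hu h => ⟨u, hu, h⟩
  unit_δ₂ := unit_δ
  congruence := fun f u u₁ u₂ hu hf h₁ h₂ => by
    have e : u = u₁ := hf.unique h₁
    subst e
    exact congruenceG_of_norm hS ℓ hℓ hA
      ((normAlong α).comp (β : laurentBaseChange (AlgebraicClosure ℚ) F₀ →*
        laurentBaseChange (AlgebraicClosure ℚ) F₀')) δ hN f u u₂ hu hf h₂

end Builder

end Fermat.Agent.G1.Cong
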